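import Mathlib
import Fermat.Prelude.Def_FLTPrelim_Modularity

/-!
# Programme III (S48, Deligne–Serre), kernel E1b = KG: the Teichmüller character and the Kummer
congruence `ℓ B_{1,ω⁻¹} ≡ -1 (mod 𝔪)`

`Zbar := integralClosure ℤ ℂ`, `𝔪` a maximal ideal of `Zbar` containing the odd prime `ℓ`.

* `exists_root_congr` : every integer prime to `ℓ` is congruent mod `𝔪` to an `(ℓ-1)`-th root of
  unity of `Zbar`.
* `exists_teichmuller_inv` : the inverse `χ = ω⁻¹` of the Teichmüller character: a Dirichlet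
  character mod `ℓ` with values in `Zbar`, odd, `n · χ(n) ≡ 1 (mod 𝔪)` for `ℓ ∤ n`, and
  `∑_b b χ(b) ≡ -1 (mod 𝔪)`.
* `eisOne_two_mul_congr_one` : hence `2ℓ · E_{1,χ} ≡ 1 (mod 𝔪)` coefficientwise, all coefficients
  in `Zbar`.
-/

set_option autoImplicit false

namespace Fermat.Agent.DS.E1

open Finset Polynomial

local notation "Zbar" => integralClosure ℤ ℂ

theorem isIntegral_of_pow_eq_one {ζ : ℂ} {n : ℕ} (hn : 0 < n) (h : ζ ^ n = 1) : IsIntegral ℤ ζ :=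
  IsIntegral.of_pow hn (h ▸ isIntegral_one)

/-- natural numbers congruent mod `ℓ` are congruent mod `𝔪` -/
theorem natCast_sub_natCast_mem {ℓ : ℕ} {𝔪 : Ideal Zbar} (hℓ𝔪 : (ℓ : Zbar) ∈ 𝔪) {m n : ℕ}
    (h : (m : ZMod ℓ) = n) : (m : Zbar) - (n : Zbar) ∈ 𝔪 := by
  have h1 : (ℓ : ℤ) ∣ (m : ℤ) - n := by
    have : ((m : ℤ) : ZMod ℓ) = ((n : ℤ) : ZMod ℓ) := by
      push_cast
      exact h
    exact (ZMod.intCast_eq_intCast_iff_dvd_sub (n : ℤ) (m : ℤ) ℓ).mp this.symm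
  obtain ⟨t, ht⟩ := h1
  have : (m : Zbar) - (n : Zbar) = (ℓ : Zbar) * (t : Zbar) := by
    have := congrArg (fun z : ℤ => (z : Zbar)) ht
    push_cast at this
    exact this
  rw [this]
  exact Ideal.mul_mem_right _ _ hℓ𝔪

/-- every integer prime to `ℓ` is congruent mod `𝔪` to an `(ℓ-1)`-th root of unity -/
theorem exists_root_congr (ℓ : ℕ) [hℓ : Fact ℓ.Prime] (𝔪 : Ideal Zbar) [h𝔪 : 𝔪.IsMaximal]
    (hℓ𝔪 : (ℓ : Zbar) ∈ 𝔪) (b : ℕ) (hb : ¬ ℓ ∣ b) :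
    ∃ ζ : Zbar, ζ ^ (ℓ - 1) = 1 ∧ ζ - (b : Zbar) ∈ 𝔪 := by
  have hn : 0 < ℓ - 1 := Nat.sub_pos_of_lt hℓ.out.one_lt
  have hg := Complex.isPrimitiveRoot_exp (ℓ - 1) hn.ne'
  have hfac := X_pow_sub_one_eq_prod hn hg
  have hev := congrArg (Polynomial.eval (b : ℂ)) hfac
  simp only [eval_sub, eval_pow, eval_X, eval_one, eval_prod, eval_C] at hev
  -- the roots as elements of `Zbar`
  have hint : ∀ ζ ∈ nthRootsFinset (ℓ - 1) (1 : ℂ), IsIntegral ℤ ζ := fun ζ hζ =>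
    isIntegral_of_pow_eq_one hn ((mem_nthRootsFinset hn 1).mp hζ)
  let zr : {ζ // ζ ∈ nthRootsFinset (ℓ - 1) (1 : ℂ)} → Zbar := fun ζ => ⟨ζ.1, hint ζ.1 ζ.2⟩
  have hprod : ∏ ζ ∈ (nthRootsFinset (ℓ - 1) (1 : ℂ)).attach, ((b : Zbar) - zr ζ) =
      (b : Zbar) ^ (ℓ - 1) - 1 := by
    apply Subtype.ext
    have h1 := map_prod (integralClosure ℤ ℂ).val (fun ζ => (b : Zbar) - zr ζ)
      (nthRootsFinset (ℓ - 1) (1 : ℂ)).attach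
    simp only [Subalgebra.coe_val] at h1
    rw [h1]
    push_cast
    rw [hev, ← prod_attach (nthRootsFinset (ℓ - 1) (1 : ℂ))]
  -- Fermat
  have hferm : (b : Zbar) ^ (ℓ - 1) - 1 ∈ 𝔪 := by
    have hb0 : (b : ZMod ℓ) ≠ 0 := by
      rwa [Ne, ZMod.natCast_eq_zero_iff]
    have h1 := ZMod.pow_card_sub_one_eq_one hb0
    have h2 : ((b ^ (ℓ - 1) : ℕ) : ZMod ℓ) = ((1 : ℕ) : ZMod ℓ) := by
      push_cast
      exact h1
    have := natCast_sub_natCast_mem hℓ𝔪 h2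
    simpa using this
  rw [← hprod] at hferm
  obtain ⟨ζ, -, hζ⟩ := (Ideal.IsPrime.prod_mem_iff (hp := h𝔪.isPrime)).mp hferm
  refine ⟨zr ζ, ?_, ?_⟩
  · apply Subtype.ext
    simp only [zr]
    push_cast
    exact (mem_nthRootsFinset hn 1).mp ζ.2
  · have : zr ζ - (b : Zbar) = -((b : Zbar) - zr ζ) := by ring
    rw [this]
    exact 𝔪.neg_mem hζ

/-- **the inverse Teichmüller character** `χ = ω⁻¹` at `𝔪`, as a homomorphism to the units of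
`Zbar`, with `χ(x) · x ≡ 1 (mod 𝔪)` -/
theorem exists_unitHom_congr (ℓ : ℕ) [hℓ : Fact ℓ.Prime] (𝔪 : Ideal Zbar) [h𝔪 : 𝔪.IsMaximal]
    (hℓ𝔪 : (ℓ : Zbar) ∈ 𝔪) :
    ∃ χ₀ : (ZMod ℓ)ˣ →* Zbarˣ, ∀ x : (ZMod ℓ)ˣ,
      ((χ₀ x : Zbarˣ) : Zbar) * (((x : ZMod ℓ).val : ℕ) : Zbar) - 1 ∈ 𝔪 := by
  classical
  obtain ⟨b₀, hb₀⟩ := IsCyclic.exists_generator (α := (ZMod ℓ)ˣ)
  have hord : orderOf b₀ = ℓ - 1 := by
    rw [orderOf_eq_card_of_forall_mem_zpowers hb₀, Nat.card_eq_fintype_card, ZMod.card_units]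
  have h2 : 2 ≤ ℓ := hℓ.out.two_le
  -- a root of unity congruent to `b₀`
  have hval : ∀ x : (ZMod ℓ)ˣ, ¬ ℓ ∣ (x : ZMod ℓ).val := by
    intro x h
    have : ((x : ZMod ℓ).val : ZMod ℓ) = 0 := (ZMod.natCast_eq_zero_iff _ _).mpr h
    rw [ZMod.natCast_zmod_val] at this
    exact x.ne_zero this
  obtain ⟨ζ₀, hζpow, hζ⟩ := exists_root_congr ℓ 𝔪 hℓ𝔪 _ (hval b₀)
  -- its inverse as a unit
  have hinv : ζ₀ ^ (ℓ - 2) * ζ₀ = 1 := by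
    rw [← pow_succ, show ℓ - 2 + 1 = ℓ - 1 by omega, hζpow]
  let u : Zbarˣ := ⟨ζ₀ ^ (ℓ - 2), ζ₀, hinv, by rw [mul_comm]; exact hinv⟩
  have hu : orderOf u ∣ orderOf b₀ := by
    rw [hord]
    apply orderOf_dvd_of_pow_eq_one
    apply Units.ext
    show (ζ₀ ^ (ℓ - 2)) ^ (ℓ - 1) = 1
    rw [← pow_mul, mul_comm, pow_mul, hζpow, one_pow]
  let χ₀ : (ZMod ℓ)ˣ →* Zbarˣ := monoidHomOfForallMemZpowers hb₀ hu
  have hχb₀ : χ₀ b₀ = u := monoidHomOfForallMemZpowers_apply_gen hb₀ hu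
  refine ⟨χ₀, ?_⟩
  -- the residue field
  let π : Zbar →+* (Zbar ⧸ 𝔪) := Ideal.Quotient.mk 𝔪
  have hℓk : ((ℓ : ℕ) : (Zbar ⧸ 𝔪)) = 0 := by
    have : π (ℓ : Zbar) = 0 := Ideal.Quotient.eq_zero_iff_mem.mpr hℓ𝔪
    simpa using this
  have : CharP (Zbar ⧸ 𝔪) ℓ := (CharP.charP_iff_prime_eq_zero hℓ.out).mpr hℓk
  let ι : ZMod ℓ →+* (Zbar ⧸ 𝔪) := ZMod.castHom (dvd_refl ℓ) (Zbar ⧸ 𝔪)
  -- the product character into `kˣ` is trivial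
  let A : Zbarˣ →* (Zbar ⧸ 𝔪)ˣ := Units.map π.toMonoidHom
  let C : (ZMod ℓ)ˣ →* (Zbar ⧸ 𝔪)ˣ := Units.map ι.toMonoidHom
  have hAC : A u * C b₀ = 1 := by
    apply Units.ext
    show π (ζ₀ ^ (ℓ - 2)) * ι (b₀ : ZMod ℓ) = 1
    have h1 : ι (b₀ : ZMod ℓ) = π ζ₀ := by
      have h3 : π ζ₀ = π (((b₀ : ZMod ℓ).val : ℕ) : Zbar) :=
        (Ideal.Quotient.eq).mpr hζ
      rw [h3, map_natCast]
      conv_lhs => rw [← ZMod.natCast_zmod_val (b₀ : ZMod ℓ)]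
      rw [map_natCast]
    rw [h1, ← map_mul, hinv, map_one]
  have hF : ∀ x, A (χ₀ x) * C x = 1 := by
    intro x
    obtain ⟨j, rfl⟩ := Subgroup.mem_zpowers_iff.mp (hb₀ x)
    rw [map_zpow, map_zpow, map_zpow, hχb₀, ← mul_zpow, hAC, one_zpow]
  intro x
  have h2 : π ((χ₀ x : Zbarˣ) : Zbar) * ι (x : ZMod ℓ) = 1 :=
    congrArg (fun v : (Zbar ⧸ 𝔪)ˣ => (v : Zbar ⧸ 𝔪)) (hF x)
  have h3 : ι (x : ZMod ℓ) = π ((((x : ZMod ℓ).val : ℕ) : Zbar)) := by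
    rw [map_natCast]
    conv_lhs => rw [← ZMod.natCast_zmod_val (x : ZMod ℓ)]
    rw [map_natCast]
  rw [h3, ← map_mul] at h2
  have h4 : π (((χ₀ x : Zbarˣ) : Zbar) * (((x : ZMod ℓ).val : ℕ) : Zbar) - 1) = 0 := by
    rw [map_sub, h2, map_one, sub_self]
  exact Ideal.Quotient.eq_zero_iff_mem.mp h4

/-- the Dirichlet character attached to a homomorphism to the units of `Zbar` -/
noncomputable def charOfUnitHom {ℓ : ℕ} (χ₀ : (ZMod ℓ)ˣ →* Zbarˣ) : DirichletCharacter ℂ ℓ :=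
  MulChar.ofUnitHom ((Units.map ((integralClosure ℤ ℂ).val : Zbar →* ℂ)).comp χ₀)

theorem charOfUnitHom_coe {ℓ : ℕ} (χ₀ : (ZMod ℓ)ˣ →* Zbarˣ) (x : (ZMod ℓ)ˣ) :
    charOfUnitHom χ₀ (x : ZMod ℓ) = (((χ₀ x : Zbarˣ) : Zbar) : ℂ) := by
  unfold charOfUnitHom
  rw [MulChar.ofUnitHom_coe]
  rfl

/-- **(KG-1) the inverse Teichmüller character and the Kummer congruence** -/
theorem exists_teichmuller_inv (ℓ : ℕ) [hℓ : Fact ℓ.Prime] (hℓ2 : ℓ ≠ 2) (𝔪 : Ideal Zbar)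
    [h𝔪 : 𝔪.IsMaximal] (hℓ𝔪 : (ℓ : Zbar) ∈ 𝔪) :
    ∃ χ : DirichletCharacter ℂ ℓ, χ.Odd ∧ (∀ b : ZMod ℓ, ∃ z : Zbar, (z : ℂ) = χ b) ∧
      (∀ n : ℕ, ¬ ℓ ∣ n → ∃ z : Zbar, (z : ℂ) = χ (n : ZMod ℓ) ∧ z * (n : Zbar) - 1 ∈ 𝔪) ∧
      (∃ S : Zbar, (S : ℂ) = ∑ b : ZMod ℓ, (b.val : ℂ) * χ b ∧ S + 1 ∈ 𝔪) := by
  classical
  obtain ⟨χ₀, hχ₀⟩ := exists_unitHom_congr ℓ 𝔪 hℓ𝔪
  have h1𝔪 : (1 : Zbar) ∉ 𝔪 := (Ideal.ne_top_iff_one 𝔪).mp h𝔪.ne_top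
  refine ⟨charOfUnitHom χ₀, ?_, ?_, ?_, ?_⟩
  · -- odd
    show charOfUnitHom χ₀ (-1) = -1
    have e1 : (-1 : ZMod ℓ) = ((-1 : (ZMod ℓ)ˣ) : ZMod ℓ) := by simp
    rw [e1, charOfUnitHom_coe]
    have hsq : ((χ₀ (-1) : Zbarˣ) : Zbar) * ((χ₀ (-1) : Zbarˣ) : Zbar) = 1 := by
      rw [← Units.val_mul, ← map_mul]
      simp
    rcases mul_self_eq_one_iff.mp hsq with h | h
    · exfalso
      have h3 := hχ₀ (-1)
      rw [h, one_mul] at h3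
      have h1 : 1 ≤ ℓ := hℓ.out.one_lt.le
      have hv : (((-1 : (ZMod ℓ)ˣ) : ZMod ℓ).val : ZMod ℓ) = ((ℓ - 1 : ℕ) : ZMod ℓ) := by
        rw [ZMod.natCast_zmod_val]
        push_cast [Nat.cast_sub h1]
        simp
      have h4 := natCast_sub_natCast_mem hℓ𝔪 hv
      have h6 : (ℓ : Zbar) - 2 ∈ 𝔪 := by
        have := 𝔪.sub_mem h3 h4
        have e : (ℓ : Zbar) - 2 = ((((-1 : (ZMod ℓ)ˣ) : ZMod ℓ).val : ℕ) : Zbar) - 1 -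
            (((((-1 : (ZMod ℓ)ˣ) : ZMod ℓ).val : ℕ) : Zbar) - ((ℓ - 1 : ℕ) : Zbar)) := by
          push_cast [Nat.cast_sub h1]
          ring
        rw [e]
        exact this
      have h5 : (2 : Zbar) ∈ 𝔪 := by
        have := 𝔪.sub_mem hℓ𝔪 h6
        have e : (2 : Zbar) = (ℓ : Zbar) - ((ℓ : Zbar) - 2) := by ring
        rw [e]
        exact this
      obtain ⟨t, ht⟩ := hℓ.out.odd_of_ne_two hℓ2
      apply h1𝔪
      have e : (1 : Zbar) = (ℓ : Zbar) - 2 * (t : Zbar) := by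
        rw [ht]
        push_cast
        ring
      rw [e]
      exact 𝔪.sub_mem hℓ𝔪 (𝔪.mul_mem_right _ h5)
    · rw [h]
      simp
  · -- integrality
    intro b
    by_cases hb : IsUnit b
    · obtain ⟨x, rfl⟩ := hb
      exact ⟨χ₀ x, (charOfUnitHom_coe χ₀ x).symm⟩
    · exact ⟨0, by rw [MulChar.map_nonunit _ hb]; simp⟩
  · -- `n χ(n) ≡ 1`
    intro n hn
    have hcop : Nat.Coprime n ℓ := ((Nat.Prime.coprime_iff_not_dvd hℓ.out).mpr hn).symm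
    refine ⟨χ₀ (ZMod.unitOfCoprime n hcop), ?_, ?_⟩
    · rw [← charOfUnitHom_coe, ZMod.coe_unitOfCoprime]
    · have h3 := hχ₀ (ZMod.unitOfCoprime n hcop)
      have hv : (((ZMod.unitOfCoprime n hcop : (ZMod ℓ)ˣ) : ZMod ℓ).val : ZMod ℓ) = (n : ZMod ℓ) := by
        rw [ZMod.natCast_zmod_val, ZMod.coe_unitOfCoprime]
      have h4 := natCast_sub_natCast_mem hℓ𝔪 hv
      have e : ((χ₀ (ZMod.unitOfCoprime n hcop) : Zbarˣ) : Zbar) * (n : Zbar) - 1 =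
          (((χ₀ (ZMod.unitOfCoprime n hcop) : Zbarˣ) : Zbar) *
            ((((ZMod.unitOfCoprime n hcop : (ZMod ℓ)ˣ) : ZMod ℓ).val : ℕ) : Zbar) - 1) -
          ((χ₀ (ZMod.unitOfCoprime n hcop) : Zbarˣ) : Zbar) *
            (((((ZMod.unitOfCoprime n hcop : (ZMod ℓ)ˣ) : ZMod ℓ).val : ℕ) : Zbar) - (n : Zbar)) := by
        ring
      rw [e]
      exact 𝔪.sub_mem h3 (𝔪.mul_mem_left _ h4)
  · -- the Kummer congruence
    refine ⟨∑ x : (ZMod ℓ)ˣ, ((((x : ZMod ℓ).val : ℕ) : Zbar)) * ((χ₀ x : Zbarˣ) : Zbar), ?_, ?_⟩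
    · -- the sum over all residues is the sum over the units
      have h1 : ∑ b : ZMod ℓ, (b.val : ℂ) * charOfUnitHom χ₀ b =
          ∑ x : (ZMod ℓ)ˣ, (((x : ZMod ℓ).val : ℕ) : ℂ) * charOfUnitHom χ₀ (x : ZMod ℓ) := by
        symm
        refine Finset.sum_bij_ne_zero (fun x _ _ => (x : ZMod ℓ)) (fun _ _ _ => Finset.mem_univ _)
          (fun x _ _ y _ _ h => Units.ext h) ?_ (fun _ _ _ => rfl)
        intro b _ hb
        have hbu : IsUnit b := by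
          by_contra hnu
          apply hb
          rw [MulChar.map_nonunit _ hnu, mul_zero]
        obtain ⟨x, rfl⟩ := hbu
        exact ⟨x, Finset.mem_univ _, hb, rfl⟩
      rw [h1]
      have h2 := map_sum (integralClosure ℤ ℂ).val
        (fun x : (ZMod ℓ)ˣ => ((((x : ZMod ℓ).val : ℕ) : Zbar)) * ((χ₀ x : Zbarˣ) : Zbar)) Finset.univ
      simp only [Subalgebra.coe_val] at h2
      rw [h2]
      refine Finset.sum_congr rfl fun x _ => ?_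
      rw [charOfUnitHom_coe]
      push_cast
      rfl
    · -- each term is `≡ 1`, and there are `ℓ - 1` of them
      have h1 : (∑ x : (ZMod ℓ)ˣ, ((((x : ZMod ℓ).val : ℕ) : Zbar)) * ((χ₀ x : Zbarˣ) : Zbar)) -
          ((ℓ - 1 : ℕ) : Zbar) ∈ 𝔪 := by
        have hcard : ((ℓ - 1 : ℕ) : Zbar) = ∑ _x : (ZMod ℓ)ˣ, (1 : Zbar) := by
          rw [Finset.sum_const, Finset.card_univ, ZMod.card_units, nsmul_eq_mul, mul_one]
        rw [hcard, ← Finset.sum_sub_distrib]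
        refine 𝔪.sum_mem fun x _ => ?_
        rw [mul_comm]
        exact hχ₀ x
      have hℓ1 : 1 ≤ ℓ := hℓ.out.one_lt.le
      have e : (∑ x : (ZMod ℓ)ˣ, ((((x : ZMod ℓ).val : ℕ) : Zbar)) * ((χ₀ x : Zbarˣ) : Zbar)) + 1 =
          ((∑ x : (ZMod ℓ)ˣ, ((((x : ZMod ℓ).val : ℕ) : Zbar)) * ((χ₀ x : Zbarˣ) : Zbar)) -
            ((ℓ - 1 : ℕ) : Zbar)) + (ℓ : Zbar) := by
        push_cast [Nat.cast_sub hℓ1]
        ring
      rw [e]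
      exact 𝔪.add_mem h1 hℓ𝔪

section Eisenstein

open UpperHalfPlane ModularFormClass CongruenceSubgroup
open scoped MatrixGroups

theorem qCoeff_smul {ℓ : ℕ} (c : ℂ) (E : ModularForm (Gamma1 ℓ) 1) (n : ℕ) :
    qCoeff (c • E) n = c * qCoeff E n := by
  have h1 : (1 : ℝ) ∈ (Gamma1 ℓ : Subgroup (GL (Fin 2) ℝ)).strictPeriods := by
    rw [strictPeriods_Gamma1]
    exact AddSubgroup.mem_zmultiples 1
  unfold qCoeff
  rw [ModularForm.qExpansion_smul zero_lt_one h1 c E, PowerSeries.coeff_smul, smul_eq_mul]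

/-- **(KG-2)** `G := 2ℓ · E_{1,χ} ≡ 1 (mod 𝔪)` coefficientwise, with all coefficients in `Zbar`:
the hypotheses `h0`, `hn` are the coefficient clauses of `exists_eisOne` (kernel KF). -/
theorem eisOne_two_mul_congr_one (ℓ : ℕ) [NeZero ℓ] (𝔪 : Ideal Zbar) (hℓ𝔪 : (ℓ : Zbar) ∈ 𝔪)
    (χ : DirichletCharacter ℂ ℓ) (hint : ∀ b : ZMod ℓ, ∃ z : Zbar, (z : ℂ) = χ b)
    (S : Zbar) (hS : (S : ℂ) = ∑ b : ZMod ℓ, (b.val : ℂ) * χ b) (hS1 : S + 1 ∈ 𝔪)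
    (E : ModularForm (Gamma1 ℓ) 1)
    (h0 : qCoeff E 0 = -(1 / (2 * ℓ)) * ∑ b : ZMod ℓ, (b.val : ℂ) * χ b)
    (hn : ∀ n, 0 < n → qCoeff E n = ∑ d ∈ n.divisors, χ (d : ZMod ℓ)) :
    (∃ c₀ : Zbar, (c₀ : ℂ) = qCoeff (((2 * ℓ : ℕ) : ℂ) • E) 0 ∧ c₀ - 1 ∈ 𝔪) ∧
      ∀ n, 0 < n → ∃ c : Zbar, (c : ℂ) = qCoeff (((2 * ℓ : ℕ) : ℂ) • E) n ∧ c ∈ 𝔪 := by
  have hℓc : (ℓ : ℂ) ≠ 0 := by exact_mod_cast NeZero.ne ℓ
  refine ⟨⟨-S, ?_, ?_⟩, fun n hn0 => ?_⟩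
  · rw [qCoeff_smul, h0, ← hS]
    push_cast
    field_simp
  · have e : -S - 1 = -(S + 1) := by ring
    rw [e]
    exact 𝔪.neg_mem hS1
  · choose z hz using hint
    refine ⟨(ℓ : Zbar) * (∑ d ∈ n.divisors, z (d : ZMod ℓ) + ∑ d ∈ n.divisors, z (d : ZMod ℓ)), ?_,
      𝔪.mul_mem_right _ hℓ𝔪⟩
    rw [qCoeff_smul, hn n hn0]
    push_cast
    simp only [hz]
    ring

end Eisenstein

end Fermat.Agent.DS.E1
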