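import Mathlib

/-!
# Programme III, kernel E1, leaf KF (assembly) — finite Fourier analysis on `ZMod ℓ`

For a Dirichlet character `χ` modulo a prime `ℓ`, the coefficients
`eisCoeff χ a = -(1/2ℓ) Σ_b χ(b) e(-ab)` (`e = ZMod.stdAddChar`) satisfy

* `sum_eisCoeff_mul_stdAddChar` : `Σ_a c_a e(ak) = -χ(k)/2`;
* `eisCoeff_zero` : `c_0 = 0` for `χ ≠ 1`;
* `eisCoeff_mul_inv` : `c_{a δ⁻¹} = χ(δ) c_a`;

and the elementary identities `(x - 1) Σ_{b<n} b x^b = n` for an `n`-th root of unity `x ≠ 1`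
(`sub_one_mul_sum_range_mul_pow`) and `cot z / (2 i) = 1/2 + 1/(e^{2iz} - 1)`.
-/

set_option autoImplicit false

noncomputable section

namespace Fermat.Agent.DS.E1

open Complex Real ZMod

section Coeff

variable {ℓ : ℕ} [Fact ℓ.Prime] (χ : DirichletCharacter ℂ ℓ)

/-- The Fourier coefficients `c_a = -(1/2ℓ) Σ_b χ(b) e(-ab)`. -/
def eisCoeff (a : ZMod ℓ) : ℂ :=
  -(1 / (2 * (ℓ : ℂ))) * ∑ b : ZMod ℓ, χ b * stdAddChar (-(a * b))

theorem sum_eisCoeff_mul_stdAddChar (k : ZMod ℓ) :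
    ∑ a : ZMod ℓ, eisCoeff χ a * stdAddChar (a * k) = -(1 / 2) * χ k := by
  classical
  have hℓ : (ℓ : ℂ) ≠ 0 := Nat.cast_ne_zero.mpr (Fact.out : ℓ.Prime).ne_zero
  have h1 : ∀ a : ZMod ℓ, eisCoeff χ a * stdAddChar (a * k) =
      -(1 / (2 * (ℓ : ℂ))) * ∑ b : ZMod ℓ, χ b * stdAddChar (a * (k - b)) := by
    intro a
    rw [eisCoeff, mul_assoc, Finset.sum_mul]
    congr 1
    refine Finset.sum_congr rfl fun b _ => ?_
    rw [mul_assoc, ← AddChar.map_add_eq_mul]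
    congr 2
    ring
  simp_rw [h1]
  rw [← Finset.mul_sum, Finset.sum_comm]
  simp_rw [← Finset.mul_sum, AddChar.sum_mulShift _ (isPrimitive_stdAddChar ℓ)]
  rw [Finset.sum_eq_single k]
  · rw [sub_self, if_pos rfl, ZMod.card]
    field_simp
  · intro b _ hb
    rw [if_neg (sub_ne_zero.mpr (Ne.symm hb)), Nat.cast_zero, mul_zero]
  · intro h
    exact absurd (Finset.mem_univ k) h

theorem eisCoeff_zero (hχ : χ ≠ 1) : eisCoeff χ 0 = 0 := by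
  rw [eisCoeff]
  simp only [zero_mul, neg_zero, AddChar.map_zero_eq_one, mul_one]
  rw [MulChar.sum_eq_zero_of_ne_one hχ, mul_zero]

theorem eisCoeff_mul_inv (δ : (ZMod ℓ)ˣ) (a : ZMod ℓ) :
    eisCoeff χ (a * ((δ⁻¹ : (ZMod ℓ)ˣ) : ZMod ℓ)) = χ δ * eisCoeff χ a := by
  have key : ∑ b : ZMod ℓ, χ b * stdAddChar (-(a * ((δ⁻¹ : (ZMod ℓ)ˣ) : ZMod ℓ) * b)) =
      χ δ * ∑ b : ZMod ℓ, χ b * stdAddChar (-(a * b)) := by
    rw [Finset.mul_sum]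
    refine Fintype.sum_equiv (Units.mulLeft δ⁻¹)
      (fun b : ZMod ℓ => χ b * stdAddChar (-(a * ((δ⁻¹ : (ZMod ℓ)ˣ) : ZMod ℓ) * b)))
      (fun b : ZMod ℓ => χ δ * (χ b * stdAddChar (-(a * b)))) fun b => ?_
    change χ b * stdAddChar (-(a * ((δ⁻¹ : (ZMod ℓ)ˣ) : ZMod ℓ) * b)) =
      χ δ * (χ (((δ⁻¹ : (ZMod ℓ)ˣ) : ZMod ℓ) * b) *
        stdAddChar (-(a * (((δ⁻¹ : (ZMod ℓ)ˣ) : ZMod ℓ) * b))))
    have h1 : a * ((δ⁻¹ : (ZMod ℓ)ˣ) : ZMod ℓ) * b =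
        a * (((δ⁻¹ : (ZMod ℓ)ˣ) : ZMod ℓ) * b) := by ring
    have h2 : χ b = χ δ * χ (((δ⁻¹ : (ZMod ℓ)ˣ) : ZMod ℓ) * b) := by
      rw [← map_mul, ← mul_assoc, Units.mul_inv, one_mul]
    rw [h1, h2, mul_assoc]
  rw [eisCoeff, eisCoeff, key]
  ring

end Coeff

section Elementary

/-- `(x - 1) Σ_{b<n} b x^b = n x^n - x Σ_{b<n} x^b`. -/
theorem sub_one_mul_sum_range_mul_pow_general (x : ℂ) (n : ℕ) :
    (x - 1) * ∑ b ∈ Finset.range n, (b : ℂ) * x ^ b =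
      n * x ^ n - x * ∑ b ∈ Finset.range n, x ^ b := by
  induction n with
  | zero => simp
  | succ n ih =>
    rw [Finset.sum_range_succ, mul_add, ih, Finset.sum_range_succ]
    push_cast
    ring

/-- `(x - 1) Σ_{b<n} b x^b = n` for an `n`-th root of unity `x ≠ 1`. -/
theorem sub_one_mul_sum_range_mul_pow {x : ℂ} {n : ℕ} (hx : x ≠ 1) (hxn : x ^ n = 1) :
    (x - 1) * ∑ b ∈ Finset.range n, (b : ℂ) * x ^ b = n := by
  rw [sub_one_mul_sum_range_mul_pow_general, hxn, mul_one]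
  have hgeom : ∑ b ∈ Finset.range n, x ^ b = 0 := by
    have h := geom_sum_mul x n
    rw [hxn, sub_self] at h
    rcases mul_eq_zero.mp h with h | h
    · exact h
    · exact absurd (sub_eq_zero.mp h) hx
  rw [hgeom, mul_zero, sub_zero]

/-- `cot z / (2 i) = 1/2 + 1/(e^{2iz} - 1)`. -/
theorem cot_div_two_I (z : ℂ) (hz : Complex.exp (2 * I * z) ≠ 1) :
    Complex.cot z / (2 * I) = 1 / 2 + 1 / (Complex.exp (2 * I * z) - 1) := by
  rw [Complex.cot_eq_exp_ratio]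
  have h1 : Complex.exp (2 * I * z) - 1 ≠ 0 := sub_ne_zero.mpr hz
  have h2 : (1 : ℂ) - Complex.exp (2 * I * z) ≠ 0 := sub_ne_zero.mpr (Ne.symm hz)
  field_simp
  ring_nf
  rw [Complex.I_sq]
  ring

end Elementary

end Fermat.Agent.DS.E1
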