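import Fermat.Agent.DS.E1.Defs
import Fermat.Agent.DS.E1.FourierZMod
import Fermat.Prelude.Def_FLTPrelim_Modularity

/-!
# Programme III, kernel E1, leaf KF — assembly of the weight-one Eisenstein series `E_{1,χ}`

From the kernels `KA`, `KB`, `KC` (transformation law of `Φ_{(r,s)}`), `AsmKE1` (holomorphy),
`AsmKE2` (boundedness at `i∞`) and `AsmKE3` (the `q`-expansion of `Φ_{(0,s)}`) we construct, for an
odd Dirichlet character `χ` modulo a prime `ℓ`,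
`E = (1/2πi) Σ_{a ≠ 0} c_a Φ_{(0, a/ℓ)}`, `c_a = -(1/2ℓ) Σ_b χ(b) e^{-2πi ab/ℓ}`,
a modular form of weight one on `Γ₁(ℓ)` with nebentypus `χ` and `q`-expansion
`-(1/2ℓ) Σ_b b χ(b) + Σ_{n ≥ 1} (Σ_{d ∣ n} χ(d)) qⁿ`.
-/

set_option autoImplicit false
set_option linter.unusedSectionVars false
set_option linter.unusedVariables false

noncomputable section

namespace Fermat.Agent.DS.E1

open UpperHalfPlane Complex Real CongruenceSubgroup ZMod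
open scoped MatrixGroups ModularForm Manifold

local notation "𝕢" => Function.Periodic.qParam

/-- (KE1) holomorphy of `Φ_{(r,s)}`. -/
def AsmKE1 : Prop := ∀ r s : ℝ, NotInt r s → MDiff (Phi r s)

/-- (KE2) boundedness of `Φ_{(r,s)}` at `i∞`. -/
def AsmKE2 : Prop := ∀ r s : ℝ, NotInt r s → IsBoundedAtImInfty (Phi r s)

/-- (KE3) the `q`-expansion of `Φ_{(0,s)}`. -/
def AsmKE3 : Prop := ∀ s : ℝ, (∀ n : ℤ, s ≠ n) → ∀ τ : ℍ,
  HasSum (fun N : ℕ+ => (∑ k ∈ (N : ℕ).divisors,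
      (cexp (-(2 * π * Complex.I * s * k)) - cexp (2 * π * Complex.I * s * k))) *
        𝕢 1 τ ^ (N : ℕ))
    ((Phi 0 s τ - π * Complex.cot (π * s)) / (2 * π * Complex.I))

/-! ## periodicity of `Φ` in `(r, s)` -/

theorem asm_Phi_add_int (hC : KC) {r s : ℝ} (hrs : NotInt r s) (m n : ℤ) :
    Phi (r + m) (s + n) = Phi r s := by
  funext τ
  have h := Psi_add_lam hC τ ((r : ℂ) * τ + s) (not_inLat_of_notInt hrs τ) m n
  have e : (((r + m : ℝ) : ℂ)) * τ + ((s + n : ℝ) : ℂ) = (r : ℂ) * τ + s + (m : ℂ) * τ + n := by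
    push_cast
    ring
  rw [Phi, Phi, e, h]
  push_cast
  ring

/-! ## the points `(0, a/ℓ)` -/

section Level

variable {ℓ : ℕ} [Fact ℓ.Prime]

/-- `s_a = a.val / ℓ` -/
def sOf (a : ZMod ℓ) : ℝ := (a.val : ℝ) / ℓ

theorem sOf_ne_int {a : ZMod ℓ} (ha : a ≠ 0) (n : ℤ) : sOf a ≠ n := by
  intro h
  have hℓ : (0 : ℝ) < ℓ := Nat.cast_pos.mpr (Fact.out : ℓ.Prime).pos
  rw [sOf, div_eq_iff hℓ.ne'] at h
  have h1 : ((a.val : ℤ) : ℝ) = ((n * ℓ : ℤ) : ℝ) := by push_cast; exact h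
  have h2 : (a.val : ℤ) = n * ℓ := by exact_mod_cast h1
  have h3 : (ℓ : ℤ) ∣ (a.val : ℤ) := ⟨n, by rw [h2, mul_comm]⟩
  have h4 : ℓ ∣ a.val := Int.natCast_dvd_natCast.mp h3
  have h5 : a.val = 0 := Nat.eq_zero_of_dvd_of_lt h4 (ZMod.val_lt a)
  exact ha ((ZMod.val_eq_zero a).mp h5)

theorem notInt_sOf {a : ZMod ℓ} (ha : a ≠ 0) : NotInt 0 (sOf a) := by
  rintro ⟨m, n, -, hn⟩
  exact sOf_ne_int ha n hn

/-! ## the action of `SL(2,ℤ)` and of `Γ₀(ℓ)` on the `Φ_{(0, a/ℓ)}` -/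

theorem Phi_zero_slash (hA : KA) (hB : KB) (hC : KC) (γ : SL(2, ℤ)) {s : ℝ} (hs : NotInt 0 s) :
    (Phi 0 s) ∣[(1 : ℤ)] γ = Phi (s * (γ 1 0 : ℤ)) (s * (γ 1 1 : ℤ)) := by
  have h := Phi_slash_of_kernels hA hB hC γ 0 s hs
  rw [zero_mul, zero_add, zero_mul, zero_add] at h
  exact h

/-- the lower right entry of `γ ∈ Γ₀(ℓ)` is a unit modulo `ℓ` -/
theorem lowerRight_ne_zero {γ : SL(2, ℤ)} (hγ : γ ∈ Gamma0 ℓ) :
    ((γ 1 1 : ℤ) : ZMod ℓ) ≠ 0 := by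
  intro h
  have h10 : ((γ 1 0 : ℤ) : ZMod ℓ) = 0 := Gamma0_mem.mp hγ
  have hdet : (γ 0 0 : ℤ) * γ 1 1 - γ 0 1 * γ 1 0 = 1 := by
    have := γ.det_coe
    rwa [Matrix.det_fin_two] at this
  have := congrArg (fun x : ℤ => (x : ZMod ℓ)) hdet
  simp only [Int.cast_sub, Int.cast_mul, h, h10, mul_zero, sub_zero, Int.cast_one] at this
  exact zero_ne_one this

theorem Phi_sOf_slash_Gamma0 (hA : KA) (hB : KB) (hC : KC) {γ : SL(2, ℤ)} (hγ : γ ∈ Gamma0 ℓ)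
    {a : ZMod ℓ} (ha : a ≠ 0) :
    (Phi 0 (sOf a)) ∣[(1 : ℤ)] γ = Phi 0 (sOf (a * ((γ 1 1 : ℤ) : ZMod ℓ))) := by
  have hℓ : (ℓ : ℝ) ≠ 0 := Nat.cast_ne_zero.mpr (Fact.out : ℓ.Prime).ne_zero
  set δ : ZMod ℓ := ((γ 1 1 : ℤ) : ZMod ℓ) with hδ
  have hδ0 : δ ≠ 0 := lowerRight_ne_zero hγ
  have hb : a * δ ≠ 0 := mul_ne_zero ha hδ0
  -- the lower left entry is divisible by `ℓ`
  have h10 : ((γ 1 0 : ℤ) : ZMod ℓ) = 0 := Gamma0_mem.mp hγ
  obtain ⟨c', hc'⟩ : (ℓ : ℤ) ∣ (γ 1 0 : ℤ) := (ZMod.intCast_zmod_eq_zero_iff_dvd _ _).mp h10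
  -- `a.val * γ₁₁ ≡ (a δ).val` modulo `ℓ`
  have hcong : (((a * δ).val : ℤ) : ZMod ℓ) = (((a.val : ℤ) * (γ 1 1 : ℤ) : ℤ) : ZMod ℓ) := by
    push_cast
    rw [ZMod.natCast_zmod_val, ZMod.natCast_zmod_val]
  obtain ⟨t, ht⟩ : (ℓ : ℤ) ∣ (a.val : ℤ) * (γ 1 1 : ℤ) - ((a * δ).val : ℤ) :=
    (ZMod.intCast_eq_intCast_iff_dvd_sub _ _ ℓ).mp hcong
  rw [Phi_zero_slash hA hB hC γ (notInt_sOf ha)]
  have e1 : sOf a * ((γ 1 0 : ℤ) : ℝ) = 0 + (((a.val : ℤ) * c' : ℤ) : ℝ) := by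
    rw [sOf, hc']
    push_cast
    field_simp
    ring
  have e2 : sOf a * ((γ 1 1 : ℤ) : ℝ) = sOf (a * δ) + ((t : ℤ) : ℝ) := by
    have ht' : ((a.val : ℤ) : ℝ) * ((γ 1 1 : ℤ) : ℝ) - (((a * δ).val : ℤ) : ℝ) = (ℓ : ℝ) * t := by
      exact_mod_cast ht
    rw [sOf, sOf]
    field_simp
    push_cast at ht'
    linarith
  rw [e1, e2]
  exact asm_Phi_add_int hC (notInt_sOf hb) _ _

/-! ## the Eisenstein series -/

/-- `Φ_{(0, a/ℓ)}` for `a ≠ 0`, and `0` for `a = 0`. -/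
def phiOf (a : ZMod ℓ) : ℍ → ℂ := if a = 0 then 0 else Phi 0 (sOf a)

theorem phiOf_zero : phiOf (0 : ZMod ℓ) = 0 := if_pos rfl

theorem phiOf_of_ne {a : ZMod ℓ} (ha : a ≠ 0) : phiOf a = Phi 0 (sOf a) := if_neg ha

/-- `E = (1/2πi) Σ_a c_a Φ_{(0, a/ℓ)}`. -/
def eisFun (χ : DirichletCharacter ℂ ℓ) : ℍ → ℂ :=
  (1 / (2 * π * Complex.I)) • ∑ a : ZMod ℓ, eisCoeff χ a • phiOf a

theorem phiOf_slash_Gamma0 (hA : KA) (hB : KB) (hC : KC) {γ : SL(2, ℤ)} (hγ : γ ∈ Gamma0 ℓ)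
    (a : ZMod ℓ) :
    (phiOf a) ∣[(1 : ℤ)] γ = phiOf (a * ((γ 1 1 : ℤ) : ZMod ℓ)) := by
  by_cases ha : a = 0
  · subst ha
    rw [zero_mul, phiOf_zero]
    exact SlashAction.zero_slash _ _
  · rw [phiOf_of_ne ha, phiOf_of_ne (mul_ne_zero ha (lowerRight_ne_zero hγ))]
    exact Phi_sOf_slash_Gamma0 hA hB hC hγ ha

theorem eisFun_slash (χ : DirichletCharacter ℂ ℓ) (γ : SL(2, ℤ)) :
    (eisFun χ) ∣[(1 : ℤ)] γ =
      (1 / (2 * π * Complex.I)) • ∑ a : ZMod ℓ, eisCoeff χ a • ((phiOf a) ∣[(1 : ℤ)] γ) := by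
  rw [eisFun, ModularForm.SL_smul_slash, SlashAction.sum_slash]
  congr 1
  refine Finset.sum_congr rfl fun a _ => ?_
  rw [ModularForm.SL_smul_slash]

/-- **the nebentypus** -/
theorem eisFun_slash_Gamma0 (hA : KA) (hB : KB) (hC : KC) (χ : DirichletCharacter ℂ ℓ)
    {γ : SL(2, ℤ)} (hγ : γ ∈ Gamma0 ℓ) :
    (eisFun χ) ∣[(1 : ℤ)] γ = χ ((γ 1 1 : ℤ) : ZMod ℓ) • eisFun χ := by
  set δ : ZMod ℓ := ((γ 1 1 : ℤ) : ZMod ℓ) with hδ
  have hδ0 : δ ≠ 0 := lowerRight_ne_zero hγ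
  set u : (ZMod ℓ)ˣ := Units.mk0 δ hδ0 with hu
  have huδ : ((u : (ZMod ℓ)ˣ) : ZMod ℓ) = δ := rfl
  rw [eisFun_slash, eisFun, smul_comm]
  congr 1
  rw [Finset.smul_sum]
  simp_rw [phiOf_slash_Gamma0 hA hB hC hγ]
  refine Fintype.sum_equiv (Units.mulRight u)
    (fun a : ZMod ℓ => eisCoeff χ a • phiOf (a * δ))
    (fun b : ZMod ℓ => χ δ • eisCoeff χ b • phiOf b) fun a => ?_
  change eisCoeff χ a • phiOf (a * δ) =
    χ δ • eisCoeff χ (a * (u : ZMod ℓ)) • phiOf (a * (u : ZMod ℓ))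
  have h1 := eisCoeff_mul_inv χ u (a * (u : ZMod ℓ))
  rw [mul_assoc, Units.mul_inv, mul_one] at h1
  rw [h1, huδ, mul_smul]

/-! ## holomorphy and boundedness -/

theorem mdifferentiable_finset_sum {ι : Type*} (s : Finset ι) (F : ι → ℍ → ℂ)
    (hF : ∀ i ∈ s, MDiff (F i)) : MDiff (∑ i ∈ s, F i) := by
  classical
  induction s using Finset.induction_on with
  | empty =>
    rw [Finset.sum_empty]
    exact mdifferentiable_const
  | insert a s ha ih =>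
    rw [Finset.sum_insert ha]
    exact (hF a (Finset.mem_insert_self _ _)).add
      (ih fun i hi => hF i (Finset.mem_insert_of_mem hi))

theorem isBoundedAtImInfty_finset_sum {ι : Type*} (s : Finset ι) (F : ι → ℍ → ℂ)
    (hF : ∀ i ∈ s, IsBoundedAtImInfty (F i)) : IsBoundedAtImInfty (∑ i ∈ s, F i) := by
  classical
  induction s using Finset.induction_on with
  | empty =>
    rw [Finset.sum_empty]
    exact zero_form_isBoundedAtImInfty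
  | insert a s ha ih =>
    rw [Finset.sum_insert ha]
    exact (hF a (Finset.mem_insert_self _ _)).add
      (ih fun i hi => hF i (Finset.mem_insert_of_mem hi))

theorem mdifferentiable_phiOf (h1 : AsmKE1) (a : ZMod ℓ) : MDiff (phiOf a) := by
  by_cases ha : a = 0
  · subst ha
    rw [phiOf_zero]
    exact mdifferentiable_const
  · rw [phiOf_of_ne ha]
    exact h1 0 (sOf a) (notInt_sOf ha)

theorem mdifferentiable_eisFun (h1 : AsmKE1) (χ : DirichletCharacter ℂ ℓ) :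
    MDiff (eisFun χ) := by
  rw [eisFun]
  exact (mdifferentiable_finset_sum _ _ fun a _ =>
    (mdifferentiable_phiOf h1 a).const_smul _).const_smul _

/-- `(a/ℓ)·(γ₁₀, γ₁₁) ∉ ℤ²` for `a ≠ 0`, as the bottom row of `γ` is primitive -/
theorem notInt_sOf_mul {a : ZMod ℓ} (ha : a ≠ 0) (γ : SL(2, ℤ)) :
    NotInt (sOf a * (γ 1 0 : ℤ)) (sOf a * (γ 1 1 : ℤ)) := by
  have h := notInt_vecMul (notInt_sOf ha) γ
  rwa [zero_mul, zero_add, zero_mul, zero_add] at h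

theorem isBoundedAtImInfty_phiOf_slash (hA : KA) (hB : KB) (hC : KC) (h2 : AsmKE2) (a : ZMod ℓ)
    (γ : SL(2, ℤ)) : IsBoundedAtImInfty ((phiOf a) ∣[(1 : ℤ)] γ) := by
  by_cases ha : a = 0
  · subst ha
    rw [phiOf_zero, SlashAction.zero_slash]
    exact zero_form_isBoundedAtImInfty
  · rw [phiOf_of_ne ha, Phi_zero_slash hA hB hC γ (notInt_sOf ha)]
    exact h2 _ _ (notInt_sOf_mul ha γ)

theorem isBoundedAtImInfty_eisFun_slash (hA : KA) (hB : KB) (hC : KC) (h2 : AsmKE2)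
    (χ : DirichletCharacter ℂ ℓ) (γ : SL(2, ℤ)) :
    IsBoundedAtImInfty ((eisFun χ) ∣[(1 : ℤ)] γ) := by
  rw [eisFun_slash]
  exact (isBoundedAtImInfty_finset_sum _ _ fun a _ =>
    (isBoundedAtImInfty_phiOf_slash hA hB hC h2 a γ).const_smul_left _).const_smul_left _

/-! ## the modular form -/

theorem T_mem_Gamma1 (N : ℕ) : ModularGroup.T ∈ Gamma1 N := by
  rw [Gamma1_mem]
  simp [ModularGroup.T]

theorem one_mem_strictPeriods_Gamma1 (N : ℕ) :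
    (1 : ℝ) ∈ ((Gamma1 N : Subgroup SL(2, ℤ)) : Subgroup (GL (Fin 2) ℝ)).strictPeriods := by
  rw [Subgroup.strictPeriods_eq_zmultiples_one_of_T_mem (T_mem_Gamma1 N)]
  exact AddSubgroup.mem_zmultiples 1

/-- `E_{1,χ}` as a modular form of weight one on `Γ₁(ℓ)`. -/
def eisForm (hA : KA) (hB : KB) (hC : KC) (h1 : AsmKE1) (h2 : AsmKE2)
    (χ : DirichletCharacter ℂ ℓ) : ModularForm (Gamma1 ℓ) 1 where
  toFun := eisFun χ
  slash_action_eq' g hg := by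
    obtain ⟨g, (hg : g ∈ Gamma1 ℓ), rfl⟩ := hg
    change (eisFun χ) ∣[(1 : ℤ)] g = _
    rw [eisFun_slash_Gamma0 hA hB hC χ (Gamma1_in_Gamma0 ℓ hg), ((Gamma1_mem ℓ g).mp hg).2.1,
      map_one, one_smul]
  holo' := mdifferentiable_eisFun h1 χ
  bdd_at_cusps' {c} hc := by
    rw [Subgroup.IsArithmetic.isCusp_iff_isCusp_SL2Z] at hc
    rw [OnePoint.isBoundedAt_iff_forall_SL2Z hc]
    exact fun γ _ => isBoundedAtImInfty_eisFun_slash hA hB hC h2 χ γ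

@[simp] theorem coe_eisForm (hA : KA) (hB : KB) (hC : KC) (h1 : AsmKE1) (h2 : AsmKE2)
    (χ : DirichletCharacter ℂ ℓ) : ⇑(eisForm hA hB hC h1 h2 χ) = eisFun χ := rfl

/-! ## the `q`-expansion -/

/-- the `q`-coefficients of `Φ_{(0,s)} / 2πi` -/
def phiCoeff (s : ℝ) (n : ℕ) : ℂ :=
  if n = 0 then π * Complex.cot (π * s) / (2 * π * Complex.I)
  else ∑ k ∈ n.divisors,
    (cexp (-(2 * π * Complex.I * s * k)) - cexp (2 * π * Complex.I * s * k))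

theorem phiCoeff_zero (s : ℝ) :
    phiCoeff s 0 = π * Complex.cot (π * s) / (2 * π * Complex.I) := if_pos rfl

theorem phiCoeff_of_ne (s : ℝ) {n : ℕ} (hn : n ≠ 0) :
    phiCoeff s n = ∑ k ∈ n.divisors,
      (cexp (-(2 * π * Complex.I * s * k)) - cexp (2 * π * Complex.I * s * k)) := if_neg hn

theorem hasSum_phiCoeff (h3 : AsmKE3) {s : ℝ} (hs : ∀ n : ℤ, s ≠ n) (τ : ℍ) :
    HasSum (fun n : ℕ => phiCoeff s n * 𝕢 1 τ ^ n) (Phi 0 s τ / (2 * π * Complex.I)) := by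
  have h := h3 s hs τ
  have h' : HasSum (fun N : ℕ+ => phiCoeff s N * 𝕢 1 τ ^ (N : ℕ))
      ((Phi 0 s τ - π * Complex.cot (π * s)) / (2 * π * Complex.I)) := by
    convert h using 2 with N
    rw [phiCoeff_of_ne s N.ne_zero]
  have h'' := (hasSum_pnat_iff (f := fun n : ℕ => phiCoeff s n * 𝕢 1 τ ^ n)).mp h'
  have e : Phi 0 s τ / (2 * π * Complex.I) =
      (Phi 0 s τ - π * Complex.cot (π * s)) / (2 * π * Complex.I) +
        phiCoeff s 0 * 𝕢 1 τ ^ 0 := by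
    rw [phiCoeff_zero, pow_zero, mul_one]
    ring
  rw [e]
  exact h''

/-- the `q`-coefficients of `phiOf a / 2πi` -/
def phiOfCoeff (a : ZMod ℓ) (n : ℕ) : ℂ := if a = 0 then 0 else phiCoeff (sOf a) n

theorem hasSum_phiOfCoeff (h3 : AsmKE3) (a : ZMod ℓ) (τ : ℍ) :
    HasSum (fun n : ℕ => phiOfCoeff a n * 𝕢 1 τ ^ n) (phiOf a τ / (2 * π * Complex.I)) := by
  by_cases ha : a = 0
  · subst ha
    simp only [phiOfCoeff, if_pos, phiOf_zero, Pi.zero_apply, zero_div, zero_mul]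
    exact hasSum_zero
  · simp only [phiOfCoeff, if_neg ha, phiOf_of_ne ha]
    exact hasSum_phiCoeff h3 (sOf_ne_int ha) τ

/-- the `q`-coefficients of `E` -/
def eisQ (χ : DirichletCharacter ℂ ℓ) (n : ℕ) : ℂ := ∑ a : ZMod ℓ, eisCoeff χ a * phiOfCoeff a n

theorem hasSum_eisQ (h3 : AsmKE3) (χ : DirichletCharacter ℂ ℓ) (τ : ℍ) :
    HasSum (fun n : ℕ => eisQ χ n • 𝕢 1 τ ^ n) (eisFun χ τ) := by
  have h : HasSum (fun n : ℕ => ∑ a : ZMod ℓ, eisCoeff χ a * (phiOfCoeff a n * 𝕢 1 τ ^ n))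
      (∑ a : ZMod ℓ, eisCoeff χ a * (phiOf a τ / (2 * π * Complex.I))) :=
    hasSum_sum fun a _ => (hasSum_phiOfCoeff h3 a τ).mul_left _
  convert h using 1
  · funext n
    rw [eisQ, smul_eq_mul, Finset.sum_mul]
    exact Finset.sum_congr rfl fun a _ => mul_assoc _ _ _
  · rw [eisFun]
    simp only [Pi.smul_apply, Finset.sum_apply, smul_eq_mul, Finset.mul_sum]
    refine Finset.sum_congr rfl fun a _ => ?_
    ring

theorem qCoeff_eisForm (hA : KA) (hB : KB) (hC : KC) (h1 : AsmKE1) (h2 : AsmKE2) (h3 : AsmKE3)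
    (χ : DirichletCharacter ℂ ℓ) (n : ℕ) :
    ModularFormClass.qCoeff (eisForm hA hB hC h1 h2 χ) n = eisQ χ n := by
  rw [ModularFormClass.qCoeff]
  exact (ModularFormClass.qExpansion_coeff_unique one_pos (one_mem_strictPeriods_Gamma1 ℓ)
    (f := eisForm hA hB hC h1 h2 χ) (c := eisQ χ) (fun τ => hasSum_eisQ h3 χ τ) n).symm

/-! ## evaluation of the coefficients -/

theorem cexp_sOf (a : ZMod ℓ) (k : ℕ) :
    cexp (2 * π * Complex.I * (sOf a : ℝ) * k) = stdAddChar (a * (k : ZMod ℓ)) := by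
  have h := ZMod.stdAddChar_coe (N := ℓ) ((a.val : ℤ) * (k : ℤ))
  have e : (((a.val : ℤ) * (k : ℤ) : ℤ) : ZMod ℓ) = a * (k : ZMod ℓ) := by
    push_cast
    rw [ZMod.natCast_zmod_val]
  rw [e] at h
  rw [h, sOf]
  congr 1
  push_cast
  ring

theorem cexp_neg_sOf (a : ZMod ℓ) (k : ℕ) :
    cexp (-(2 * π * Complex.I * (sOf a : ℝ) * k)) = stdAddChar (a * (-(k : ZMod ℓ))) := by
  rw [Complex.exp_neg, cexp_sOf, mul_neg, AddChar.map_neg_eq_inv]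

theorem phiOfCoeff_of_ne_zero (a : ZMod ℓ) {n : ℕ} (hn : n ≠ 0) :
    phiOfCoeff a n = ∑ k ∈ n.divisors,
      (stdAddChar (a * (-(k : ZMod ℓ))) - stdAddChar (a * (k : ZMod ℓ))) := by
  by_cases ha : a = 0
  · subst ha
    simp [phiOfCoeff]
  · rw [phiOfCoeff, if_neg ha, phiCoeff_of_ne _ hn]
    refine Finset.sum_congr rfl fun k _ => ?_
    rw [cexp_neg_sOf, cexp_sOf]

/-- the higher coefficients: `Σ_{d ∣ n} χ(d)` -/
theorem eisQ_of_ne_zero (χ : DirichletCharacter ℂ ℓ) (hχ : χ.Odd) {n : ℕ} (hn : n ≠ 0) :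
    eisQ χ n = ∑ d ∈ n.divisors, χ (d : ZMod ℓ) := by
  rw [eisQ]
  simp_rw [phiOfCoeff_of_ne_zero _ hn, Finset.mul_sum]
  rw [Finset.sum_comm]
  refine Finset.sum_congr rfl fun k _ => ?_
  simp_rw [mul_sub]
  rw [Finset.sum_sub_distrib, sum_eisCoeff_mul_stdAddChar, sum_eisCoeff_mul_stdAddChar,
    hχ.eval_neg]
  ring

theorem asm_stdAddChar_ne_one {a : ZMod ℓ} (ha : a ≠ 0) : (stdAddChar a : ℂ) ≠ 1 := by
  intro h
  rw [← AddChar.map_zero_eq_one (stdAddChar (N := ℓ))] at h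
  exact ha (ZMod.injective_stdAddChar h)

theorem asm_stdAddChar_pow_self (a : ZMod ℓ) : (stdAddChar a : ℂ) ^ ℓ = 1 := by
  rw [← AddChar.map_nsmul_eq_pow, nsmul_eq_mul, ZMod.natCast_self, zero_mul,
    AddChar.map_zero_eq_one]

theorem asm_sum_val_mul_stdAddChar (a : ZMod ℓ) :
    ∑ b : ZMod ℓ, (b.val : ℂ) * stdAddChar (a * b) =
      ∑ i ∈ Finset.range ℓ, (i : ℂ) * (stdAddChar a : ℂ) ^ i := by
  refine Finset.sum_bij (fun b _ => b.val) (fun b _ => Finset.mem_range.mpr (ZMod.val_lt b))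
    (fun b _ b' _ h => ZMod.val_injective ℓ h) (fun i hi => ?_) (fun b _ => ?_)
  · exact ⟨(i : ZMod ℓ), Finset.mem_univ _, ZMod.val_natCast_of_lt (Finset.mem_range.mp hi)⟩
  · rw [← AddChar.map_nsmul_eq_pow, nsmul_eq_mul, ZMod.natCast_zmod_val, mul_comm b a]

/-- the constant term of `Φ_{(0, a/ℓ)} / 2πi` -/
theorem phiCoeff_sOf_zero {a : ZMod ℓ} (ha : a ≠ 0) :
    phiCoeff (sOf a) 0 =
      1 / 2 + (1 / (ℓ : ℂ)) * ∑ b : ZMod ℓ, (b.val : ℂ) * stdAddChar (a * b) := by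
  have hℓ : (ℓ : ℂ) ≠ 0 := Nat.cast_ne_zero.mpr (Fact.out : ℓ.Prime).ne_zero
  have hπ : (π : ℂ) ≠ 0 := Complex.ofReal_ne_zero.mpr Real.pi_ne_zero
  have hw : cexp (2 * Complex.I * (π * (sOf a : ℝ))) = stdAddChar a := by
    have h := cexp_sOf a 1
    rw [Nat.cast_one, mul_one, Nat.cast_one, mul_one] at h
    rw [← h]
    congr 1
    ring
  have hw1 : (stdAddChar a : ℂ) ≠ 1 := asm_stdAddChar_ne_one ha
  rw [phiCoeff_zero]
  have e1 : (π : ℂ) * Complex.cot (π * (sOf a : ℝ)) / (2 * π * Complex.I) =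
      Complex.cot (π * (sOf a : ℝ)) / (2 * Complex.I) := by
    field_simp
  rw [e1, cot_div_two_I _ (by rw [hw]; exact hw1), hw, asm_sum_val_mul_stdAddChar]
  congr 1
  have h := sub_one_mul_sum_range_mul_pow hw1 (asm_stdAddChar_pow_self a)
  have hsub : (stdAddChar a : ℂ) - 1 ≠ 0 := sub_ne_zero.mpr hw1
  have hS : ∑ b ∈ Finset.range ℓ, (b : ℂ) * (stdAddChar a : ℂ) ^ b =
      (ℓ : ℂ) / ((stdAddChar a : ℂ) - 1) := by
    rw [eq_div_iff hsub, mul_comm]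
    exact h
  rw [hS]
  field_simp

/-- the constant term: `-(1/2ℓ) Σ_b b χ(b)` -/
theorem eisQ_zero (χ : DirichletCharacter ℂ ℓ) (hχ : χ.Odd) :
    eisQ χ 0 = -(1 / (2 * (ℓ : ℂ))) * ∑ b : ZMod ℓ, (b.val : ℂ) * χ b := by
  have hχ1 : χ ≠ 1 := by
    intro h
    have h1 := hχ
    rw [DirichletCharacter.Odd, h, MulChar.one_apply (isUnit_one.neg)] at h1
    norm_num at h1
  have hχ0 : χ 0 = 0 := MulChar.map_nonunit χ not_isUnit_zero
  have key : ∀ a : ZMod ℓ, eisCoeff χ a * phiOfCoeff a 0 = eisCoeff χ a *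
      (1 / 2 * stdAddChar (a * 0) +
        (1 / (ℓ : ℂ)) * ∑ b : ZMod ℓ, (b.val : ℂ) * stdAddChar (a * b)) := by
    intro a
    by_cases ha : a = 0
    · subst ha
      rw [eisCoeff_zero χ hχ1, zero_mul, zero_mul]
    · rw [phiOfCoeff, if_neg ha, phiCoeff_sOf_zero ha, mul_zero, AddChar.map_zero_eq_one, mul_one]
  rw [eisQ]
  simp_rw [key, mul_add]
  rw [Finset.sum_add_distrib]
  have t1 : ∑ a : ZMod ℓ, eisCoeff χ a * (1 / 2 * stdAddChar (a * 0)) = 0 := by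
    have : ∀ a : ZMod ℓ, eisCoeff χ a * (1 / 2 * stdAddChar (a * 0)) =
        1 / 2 * (eisCoeff χ a * stdAddChar (a * 0)) := fun a => by ring
    simp_rw [this]
    rw [← Finset.mul_sum, sum_eisCoeff_mul_stdAddChar, hχ0]
    ring
  have t2 : ∑ a : ZMod ℓ, eisCoeff χ a *
      ((1 / (ℓ : ℂ)) * ∑ b : ZMod ℓ, (b.val : ℂ) * stdAddChar (a * b)) =
      (1 / (ℓ : ℂ)) * ∑ b : ZMod ℓ, (b.val : ℂ) * (-(1 / 2) * χ b) := by
    have : ∀ a : ZMod ℓ, eisCoeff χ a *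
        ((1 / (ℓ : ℂ)) * ∑ b : ZMod ℓ, (b.val : ℂ) * stdAddChar (a * b)) =
        (1 / (ℓ : ℂ)) * ∑ b : ZMod ℓ, (b.val : ℂ) * (eisCoeff χ a * stdAddChar (a * b)) := by
      intro a
      rw [Finset.mul_sum, Finset.mul_sum, Finset.mul_sum]
      refine Finset.sum_congr rfl fun b _ => ?_
      ring
    simp_rw [this]
    rw [← Finset.mul_sum, Finset.sum_comm]
    congr 1
    refine Finset.sum_congr rfl fun b _ => ?_
    rw [← Finset.mul_sum, sum_eisCoeff_mul_stdAddChar]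
  rw [t1, t2, zero_add, Finset.mul_sum, Finset.mul_sum]
  refine Finset.sum_congr rfl fun b _ => ?_
  field_simp

/-! ## the theorem -/

/-- **KF**: the weight-one Eisenstein series `E_{1,χ}` on `Γ₁(ℓ)`, from the kernels. -/
theorem exists_eisOne_of_kernels (hA : KA) (hB : KB) (hC : KC) (h1 : AsmKE1) (h2 : AsmKE2)
    (h3 : AsmKE3) (ℓ : ℕ) [Fact ℓ.Prime] (χ : DirichletCharacter ℂ ℓ) (hχ : χ.Odd) :
    ∃ E : ModularForm (Gamma1 ℓ) 1,
      (∀ γ ∈ Gamma0 ℓ, ⇑E ∣[(1 : ℤ)] γ = χ ((γ 1 1 : ℤ) : ZMod ℓ) • ⇑E) ∧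
      ModularFormClass.qCoeff E 0 = -(1 / (2 * (ℓ : ℂ))) * ∑ b : ZMod ℓ, (b.val : ℂ) * χ b ∧
      ∀ n : ℕ, 0 < n → ModularFormClass.qCoeff E n = ∑ d ∈ n.divisors, χ (d : ZMod ℓ) := by
  refine ⟨eisForm hA hB hC h1 h2 χ, fun γ hγ => ?_, ?_, fun n hn => ?_⟩
  · rw [coe_eisForm]
    exact eisFun_slash_Gamma0 hA hB hC χ hγ
  · rw [qCoeff_eisForm hA hB hC h1 h2 h3 χ 0, eisQ_zero χ hχ]
  · rw [qCoeff_eisForm hA hB hC h1 h2 h3 χ n, eisQ_of_ne_zero χ hχ hn.ne']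

end Level

end Fermat.Agent.DS.E1
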