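import Fermat.Agent.DS.E1.Defs
import Fermat.Prelude.Def_FLTPrelim_Modularity

/-!
# PROGRAMME III, kernel E1: the remaining seams as `Prop`s (helper18)

Producers prove `theorem kE1 : KE1` etc. in `DS/E1/<Name>.lean`; the assembly consumes the
`Prop`s as hypotheses, so every seam is kernel-checked on both sides.
-/

set_option autoImplicit false

noncomputable section

namespace Fermat.Agent.DS.E1

open UpperHalfPlane Complex Real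
open scoped MatrixGroups ModularForm Manifold

/-- (KE1) holomorphy of `Φ_{(r,s)}` -/
def KE1 : Prop := ∀ r s : ℝ, NotInt r s → MDifferentiable 𝓘(ℂ) 𝓘(ℂ) (Phi r s)

/-- (KE2) boundedness of `Φ_{(r,s)}` at `i∞` -/
def KE2 : Prop := ∀ r s : ℝ, NotInt r s → UpperHalfPlane.IsBoundedAtImInfty (Phi r s)

/-- (KE3) the `q`-expansion of `Φ_{(0,s)}` -/
def KE3 : Prop := ∀ (s : ℝ), (∀ n : ℤ, s ≠ n) → ∀ τ : ℍ,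
  HasSum (fun N : ℕ+ => (∑ k ∈ (N : ℕ).divisors,
      (cexp (-(2 * π * Complex.I * s * k)) - cexp (2 * π * Complex.I * s * k))) *
        Function.Periodic.qParam 1 τ ^ (N : ℕ))
    ((Phi 0 s τ - π * Complex.cot (π * s)) / (2 * π * Complex.I))

/-! ## finite Fourier analysis on `ZMod ℓ` -/

/-- the Fourier coefficients `c_a = -(1/2ℓ) Σ_b χ(b) e^{-2πi ab/ℓ}` -/
def cCoef {ℓ : ℕ} [NeZero ℓ] (χ : DirichletCharacter ℂ ℓ) (a : ZMod ℓ) : ℂ :=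
  -(1 / (2 * (ℓ : ℂ))) * ∑ b : ZMod ℓ, χ b * cexp (-(2 * π * Complex.I * ((a.val : ℝ) / ℓ : ℝ) * b.val))

/-- (KF1) `Σ_{a≠0} c_a (ξ^{-ak} - ξ^{ak}) = χ(k)` -/
def KF1 : Prop := ∀ (ℓ : ℕ) [Fact ℓ.Prime] (χ : DirichletCharacter ℂ ℓ), χ.Odd → ∀ k : ℕ,
  ∑ a ∈ (Finset.univ : Finset (ZMod ℓ)).erase 0, cCoef χ a *
      (cexp (-(2 * π * Complex.I * ((a.val : ℝ) / ℓ : ℝ) * k)) - cexp (2 * π * Complex.I * ((a.val : ℝ) / ℓ : ℝ) * k))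
    = χ (k : ZMod ℓ)

/-- (KF2) the constant term `Σ_{a≠0} c_a π cot(π a/ℓ) / (2πi) = -(1/2ℓ) Σ_b b χ(b)` -/
def KF2 : Prop := ∀ (ℓ : ℕ) [Fact ℓ.Prime] (χ : DirichletCharacter ℂ ℓ), χ.Odd →
  ∑ a ∈ (Finset.univ : Finset (ZMod ℓ)).erase 0, cCoef χ a *
      (π * Complex.cot (π * ((a.val : ℝ) / ℓ : ℝ)) / (2 * π * Complex.I))
    = -(1 / (2 * (ℓ : ℂ))) * ∑ b : ZMod ℓ, (b.val : ℂ) * χ b

/-- (KF3) the twist `c_{a·d} · χ(d) = c_a` for a unit `d` -/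
def KF3 : Prop := ∀ (ℓ : ℕ) [Fact ℓ.Prime] (χ : DirichletCharacter ℂ ℓ) (a : ZMod ℓ) (d : (ZMod ℓ)ˣ),
  cCoef χ (a * d) * χ d = cCoef χ a

/-! ## the forms `Φ_{(0,a/ℓ)}` on `Γ₁(ℓ)` and the final statement -/

open CongruenceSubgroup in
/-- (KFa) `Φ_{(0,a/ℓ)}` is a modular form of weight one on `Γ₁(ℓ)` -/
def KFa : Prop := ∀ (ℓ : ℕ) [NeZero ℓ] (a : ZMod ℓ), a ≠ 0 →
  ∃ F : ModularForm (Gamma1 ℓ) 1, ⇑F = Phi 0 ((a.val : ℝ) / ℓ)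

open CongruenceSubgroup in
/-- (KFb) the action of `Γ₀(ℓ)`: `Φ_{(0,a/ℓ)} ∣ γ = Φ_{(0,aδ/ℓ)}` -/
def KFb : Prop := ∀ (ℓ : ℕ) [NeZero ℓ] (a : ZMod ℓ), a ≠ 0 → ∀ γ ∈ Gamma0 ℓ,
  (Phi 0 ((a.val : ℝ) / ℓ)) ∣[(1 : ℤ)] γ =
    Phi 0 (((a * ((γ 1 1 : ℤ) : ZMod ℓ)).val : ℝ) / ℓ)

open CongruenceSubgroup in
/-- (KF) **the weight-one Eisenstein series `E_{1,χ}`**, `χ` odd mod a prime `ℓ` -/
def KF : Prop := ∀ (ℓ : ℕ) [Fact ℓ.Prime] (χ : DirichletCharacter ℂ ℓ), χ.Odd →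
  ∃ E : ModularForm (Gamma1 ℓ) 1,
    (∀ γ ∈ Gamma0 ℓ, ⇑E ∣[(1 : ℤ)] γ = χ (((γ 1 1 : ℤ)) : ZMod ℓ) • ⇑E) ∧
    ModularFormClass.qCoeff E 0 = -(1 / (2 * (ℓ : ℂ))) * ∑ b : ZMod ℓ, (b.val : ℂ) * χ b ∧
    ∀ n : ℕ, 0 < n → ModularFormClass.qCoeff E n = ∑ d ∈ n.divisors, χ (d : ZMod ℓ)

end Fermat.Agent.DS.E1
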