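import Fermat.Agent.DS.E1.PsiPeriod
import Fermat.Agent.DS.E1.Seams

/-!
# PROGRAMME III, kernel E1, leaves KE1 + KE2 (helper6): `Φ_{(r,s)}` is holomorphic on `ℍ` and
bounded at `i∞`

* `Phi_mdifferentiable` (KE1): locally uniform convergence of the series of cotangent pairs
  (geometric majorant on `{δ ≤ Im z}`) + `SummableLocallyUniformlyOn.differentiableOn`;
* `Phi_eq_Phi_fract` : `Φ_{(r,s)} = Φ_{(r - ⌊r⌋, s)}` (from the quasi-period of `Ψ`);
* `Phi_isBoundedAtImInfty` (KE2): for `0 ≤ r < 1` every cotangent is uniformly bounded on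
  `{1 ≤ Im τ}` and the pairs are dominated by a geometric series.
-/

set_option autoImplicit false

noncomputable section

namespace Fermat.Agent.DS.E1

open UpperHalfPlane Complex Real Filter
open scoped Topology Manifold

/-- `w ↦ π cot πw` is holomorphic away from the integers. -/
theorem differentiableAt_pi_cot {w : ℂ} (hw : ∀ k : ℤ, w ≠ k) :
    DifferentiableAt ℂ (fun x : ℂ => (π : ℂ) * Complex.cot (π * x)) w := by
  have hsin : Complex.sin (π * w) ≠ 0 := by
    intro h
    obtain ⟨k, hk⟩ := Complex.sin_eq_zero_iff.mp h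
    apply hw k
    have hpi : (π : ℂ) ≠ 0 := by exact_mod_cast Real.pi_ne_zero
    have : (π : ℂ) * w = π * k := by rw [hk]; ring
    exact mul_left_cancel₀ hpi this
  simp only [Complex.cot_eq_cos_div_sin]
  apply DifferentiableAt.const_mul
  apply DifferentiableAt.div
  · fun_prop
  · fun_prop
  · exact hsin

/-- the `m`-th pair as a function of the complex variable `z` (`τ = z`) -/
def termC (r s : ℝ) (m : ℕ+) (z : ℂ) : ℂ :=
  π * Complex.cot (π * ((r : ℂ) * z + s - (m : ℂ) * z)) +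
    π * Complex.cot (π * ((r : ℂ) * z + s + (m : ℂ) * z))

/-- `Φ_{(r,s)}` as a function of the complex variable -/
def PhiC (r s : ℝ) (z : ℂ) : ℂ :=
  2 * π * Complex.I * r + (π * Complex.cot (π * ((r : ℂ) * z + s)) + ∑' m : ℕ+, termC r s m z)

theorem Phi_eq_PhiC (r s : ℝ) (τ : ℍ) : Phi r s τ = PhiC r s (τ : ℂ) := rfl

/-- the arguments of the cotangents are never integers -/
theorem arg_ne_int {r s : ℝ} (hrs : NotInt r s) {z : ℂ} (hz : 0 < z.im) (n : ℤ) (k : ℤ) :
    (r : ℂ) * z + s + (n : ℂ) * z ≠ k := by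
  intro h
  have := not_inLat_of_notInt hrs ⟨z, hz⟩
  apply this
  refine ⟨-n, k, ?_⟩
  show (r : ℂ) * z + s = ((-n : ℤ) : ℂ) * z + k
  push_cast
  linear_combination h


theorem differentiableAt_termC {r s : ℝ} (hrs : NotInt r s) (m : ℕ+) {z : ℂ} (hz : 0 < z.im) :
    DifferentiableAt ℂ (termC r s m) z := by
  unfold termC
  apply DifferentiableAt.add
  · have h1 : ∀ k : ℤ, (r : ℂ) * z + s - (m : ℂ) * z ≠ k := by
      intro k
      have := arg_ne_int hrs hz (-(m : ℕ) : ℤ) k
      intro h; apply this; push_cast; linear_combination h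
    exact (differentiableAt_pi_cot h1).comp z (f := fun z : ℂ => (r : ℂ) * z + s - (m : ℂ) * z)
      (by fun_prop)
  · have h1 : ∀ k : ℤ, (r : ℂ) * z + s + (m : ℂ) * z ≠ k := by
      intro k
      have := arg_ne_int hrs hz ((m : ℕ) : ℤ) k
      intro h; apply this; push_cast; linear_combination h
    exact (differentiableAt_pi_cot h1).comp z (f := fun z : ℂ => (r : ℂ) * z + s + (m : ℂ) * z)
      (by fun_prop)

/-- the uniform bound of the `m`-th pair on `{δ ≤ Im z}`, for `|r| + 1 ≤ m` -/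
theorem norm_termC_le (r s : ℝ) {δ : ℝ} (hδ : 0 < δ) (m : ℕ+) (hm : |r| + 1 ≤ (m : ℝ)) {z : ℂ}
    (hz : δ ≤ z.im) :
    ‖termC r s m z‖ ≤ 2 * cotK δ * rexp (2 * π * |r| * δ) * rexp (-2 * π * δ) ^ (m : ℕ) := by
  have hr1 : -|r| ≤ r := neg_abs_le r
  have hr2 : r ≤ |r| := le_abs_self r
  have him1 : ((r : ℂ) * z + s + (m : ℂ) * z).im = (r + m) * z.im := by
    simp [add_im, mul_im]; ring
  have him2 : ((r : ℂ) * z + s - (m : ℂ) * z).im = (r - m) * z.im := by
    simp [add_im, sub_im, mul_im]; ring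
  have hmr : 1 ≤ (m : ℝ) - |r| := by linarith
  have hge1 : ((m : ℝ) - |r|) * δ ≤ (r + m) * z.im := by
    have : (m : ℝ) - |r| ≤ r + m := by linarith
    calc ((m : ℝ) - |r|) * δ ≤ ((m : ℝ) - |r|) * z.im :=
          mul_le_mul_of_nonneg_left hz (by linarith)
      _ ≤ (r + m) * z.im := mul_le_mul_of_nonneg_right this (hδ.le.trans hz)
  have hge2 : (r - m) * z.im ≤ -(((m : ℝ) - |r|) * δ) := by
    have : ((m : ℝ) - |r|) * δ ≤ ((m : ℝ) - r) * z.im := by
      calc ((m : ℝ) - |r|) * δ ≤ ((m : ℝ) - |r|) * z.im :=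
            mul_le_mul_of_nonneg_left hz (by linarith)
        _ ≤ ((m : ℝ) - r) * z.im :=
            mul_le_mul_of_nonneg_right (by linarith) (hδ.le.trans hz)
    linarith
  have hδle : δ ≤ ((m : ℝ) - |r|) * δ := by nlinarith
  have h1 := norm_pi_cot_add_pi_I_le_of_le (w := (r : ℂ) * z + s + (m : ℂ) * z) hδ
    (by rw [him1]; linarith)
  have h2 := norm_pi_cot_sub_pi_I_le_of_le (w := (r : ℂ) * z + s - (m : ℂ) * z) hδ
    (by rw [him2]; linarith)
  have e : termC r s m z = (π * Complex.cot (π * ((r : ℂ) * z + s - (m : ℂ) * z)) - π * Complex.I) +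
      (π * Complex.cot (π * ((r : ℂ) * z + s + (m : ℂ) * z)) + π * Complex.I) := by
    unfold termC; ring
  have hpow : rexp (2 * π * |r| * δ) * rexp (-2 * π * δ) ^ (m : ℕ)
      = rexp (-2 * π * (((m : ℝ) - |r|) * δ)) := by
    rw [← Real.exp_nat_mul, ← Real.exp_add]
    congr 1
    ring
  have hK : 0 < cotK δ := cotK_pos hδ
  have hpi : 0 < 2 * π := by positivity
  have b1 : rexp (-2 * π * ((r : ℂ) * z + s + (m : ℂ) * z).im) ≤
      rexp (-2 * π * (((m : ℝ) - |r|) * δ)) := by
    rw [him1]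
    apply Real.exp_le_exp.mpr
    nlinarith
  have b2 : rexp (2 * π * ((r : ℂ) * z + s - (m : ℂ) * z).im) ≤
      rexp (-2 * π * (((m : ℝ) - |r|) * δ)) := by
    rw [him2]
    apply Real.exp_le_exp.mpr
    nlinarith
  rw [e]
  refine (norm_add_le _ _).trans ?_
  have h1' := h1.trans (mul_le_mul_of_nonneg_left b1 hK.le)
  have h2' := h2.trans (mul_le_mul_of_nonneg_left b2 hK.le)
  have : 2 * cotK δ * rexp (2 * π * |r| * δ) * rexp (-2 * π * δ) ^ (m : ℕ)
      = 2 * (cotK δ * rexp (-2 * π * (((m : ℝ) - |r|) * δ))) := by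
    rw [← hpow]; ring
  rw [this]
  unfold cotK at *
  linarith


/-- the geometric majorant is summable over `ℕ+` -/
theorem summable_termC_bound (r : ℝ) {δ : ℝ} (hδ : 0 < δ) :
    Summable fun m : ℕ+ =>
      2 * cotK δ * rexp (2 * π * |r| * δ) * rexp (-2 * π * δ) ^ (m : ℕ) := by
  have hρ : rexp (-2 * π * δ) < 1 := by
    rw [Real.exp_lt_one_iff]
    have : 0 < 2 * π * δ := by positivity
    linarith
  have := (summable_geometric_of_lt_one (Real.exp_pos _).le hρ).mul_left
    (2 * cotK δ * rexp (2 * π * |r| * δ))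
  exact this.subtype _

/-- all but finitely many `m : ℕ+` satisfy `|r| + 1 ≤ m` -/
theorem eventually_cofinite_pnat_ge (c : ℝ) : ∀ᶠ m : ℕ+ in cofinite, c ≤ (m : ℝ) := by
  obtain ⟨M, hM⟩ := exists_nat_ge c
  have hfin : {m : ℕ+ | (m : ℕ) < M}.Finite := by
    apply Set.Finite.of_finite_image (f := fun m : ℕ+ => (m : ℕ))
    · exact (Set.finite_lt_nat M).subset (by rintro _ ⟨m, hm, rfl⟩; exact hm)
    · exact fun a _ b _ h => PNat.coe_injective h
  filter_upwards [hfin.eventually_cofinite_notMem] with m hm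
  have : M ≤ (m : ℕ) := by
    by_contra h
    exact hm (by simpa using h)
  exact hM.trans (by exact_mod_cast this)

theorem summableLocallyUniformlyOn_termC (r s : ℝ) :
    SummableLocallyUniformlyOn (fun m : ℕ+ => termC r s m) {z : ℂ | 0 < z.im} := by
  apply SummableLocallyUniformlyOn.of_locally_bounded_eventually isOpen_upperHalfPlaneSet
  intro K hK hKc
  rcases K.eq_empty_or_nonempty with rfl | hne
  · exact ⟨fun _ => 0, summable_zero, Filter.Eventually.of_forall fun m k hk => by simp at hk⟩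
  · obtain ⟨z₀, hz₀, hmin⟩ := hKc.exists_isMinOn hne Complex.continuous_im.continuousOn
    have hδ : 0 < z₀.im := hK hz₀
    refine ⟨_, summable_termC_bound r hδ, ?_⟩
    filter_upwards [eventually_cofinite_pnat_ge (|r| + 1)] with m hm z hz
    exact norm_termC_le r s hδ m hm (isMinOn_iff.mp hmin z hz)

theorem differentiableOn_PhiC {r s : ℝ} (hrs : NotInt r s) :
    DifferentiableOn ℂ (PhiC r s) {z : ℂ | 0 < z.im} := by
  unfold PhiC
  apply DifferentiableOn.add (differentiableOn_const _)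
  apply DifferentiableOn.add
  · intro z hz
    have h1 : ∀ k : ℤ, (r : ℂ) * z + s ≠ k := by
      intro k
      have := arg_ne_int hrs hz 0 k
      simpa using this
    exact ((differentiableAt_pi_cot h1).comp z (f := fun z : ℂ => (r : ℂ) * z + s)
      (by fun_prop)).differentiableWithinAt
  · exact (summableLocallyUniformlyOn_termC r s).differentiableOn isOpen_upperHalfPlaneSet
      fun m z hz => differentiableAt_termC hrs m hz

/-- **(KE1)** `Φ_{(r,s)}` is holomorphic on `ℍ`. -/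
theorem Phi_mdifferentiable {r s : ℝ} (hrs : NotInt r s) :
    MDifferentiable 𝓘(ℂ) 𝓘(ℂ) (Phi r s) := by
  rw [UpperHalfPlane.mdifferentiable_iff]
  refine (differentiableOn_PhiC hrs).congr fun z hz => ?_
  simp only [Function.comp_apply]
  rw [Phi_eq_PhiC, UpperHalfPlane.ofComplex_apply_of_im_pos hz]


/-! ## (KE2) boundedness at `i∞` -/

theorem notInt_fract {r s : ℝ} (hrs : NotInt r s) : NotInt (Int.fract r) s := by
  rintro ⟨m, n, hm, hn⟩
  apply hrs
  refine ⟨⌊r⌋ + m, n, ?_, hn⟩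
  have := Int.floor_add_fract r
  push_cast
  linarith

/-- `Φ_{(r,s)}` only depends on `r` modulo `1`. -/
theorem Phi_eq_Phi_fract {r s : ℝ} (hrs : NotInt r s) (τ : ℍ) :
    Phi r s τ = Phi (Int.fract r) s τ := by
  have hz := not_inLat_of_notInt (notInt_fract hrs) τ
  have h := Psi_add_lam kC τ _ hz ⌊r⌋ 0
  have hr : (r : ℂ) = ((⌊r⌋ : ℤ) : ℂ) + ((Int.fract r : ℝ) : ℂ) := by
    have := Int.floor_add_fract r
    exact_mod_cast this.symm
  have e : (r : ℂ) * τ + s = ((Int.fract r : ℝ) : ℂ) * τ + s + ((⌊r⌋ : ℤ) : ℂ) * τ + ((0 : ℤ) : ℂ) := by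
    rw [hr]; push_cast; ring
  unfold Phi
  rw [e, h]
  conv_lhs => rw [hr]
  ring

/-- the pairs are uniformly small on `{1 ≤ Im z}` when `0 ≤ r < 1` -/
theorem norm_termC_le_of_fract (r s : ℝ) (hr0 : 0 ≤ r) (hr1 : r < 1) (m : ℕ+) {z : ℂ}
    (hz : 1 ≤ z.im) :
    ‖termC r s m z‖ ≤
      (cotK 1 + cotK (1 - r) * rexp (2 * π * r)) * rexp (-2 * π) ^ (m : ℕ) := by
  have hm1 : (1 : ℝ) ≤ (m : ℝ) := by exact_mod_cast m.pos
  have him1 : ((r : ℂ) * z + s + (m : ℂ) * z).im = (r + m) * z.im := by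
    simp [add_im, mul_im]; ring
  have him2 : ((r : ℂ) * z + s - (m : ℂ) * z).im = (r - m) * z.im := by
    simp [add_im, sub_im, mul_im]; ring
  have hδ1 : 0 < 1 - r := by linarith
  have hge1 : (m : ℝ) ≤ (r + m) * z.im := by nlinarith
  have hge2 : (r - m) * z.im ≤ -((m : ℝ) - r) := by nlinarith
  have h1 := norm_pi_cot_add_pi_I_le_of_le (w := (r : ℂ) * z + s + (m : ℂ) * z) one_pos
    (by rw [him1]; linarith)
  have h2 := norm_pi_cot_sub_pi_I_le_of_le (w := (r : ℂ) * z + s - (m : ℂ) * z) hδ1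
    (by rw [him2]; linarith)
  have e : termC r s m z = (π * Complex.cot (π * ((r : ℂ) * z + s - (m : ℂ) * z)) - π * Complex.I) +
      (π * Complex.cot (π * ((r : ℂ) * z + s + (m : ℂ) * z)) + π * Complex.I) := by
    unfold termC; ring
  have hpow : rexp (-2 * π) ^ (m : ℕ) = rexp (-2 * π * (m : ℝ)) := by
    rw [← Real.exp_nat_mul]
    congr 1
    ring
  have hpi : 0 < 2 * π := by positivity
  have b1 : rexp (-2 * π * ((r : ℂ) * z + s + (m : ℂ) * z).im) ≤ rexp (-2 * π * (m : ℝ)) := by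
    rw [him1]
    apply Real.exp_le_exp.mpr
    nlinarith
  have b2 : rexp (2 * π * ((r : ℂ) * z + s - (m : ℂ) * z).im) ≤
      rexp (2 * π * r) * rexp (-2 * π * (m : ℝ)) := by
    rw [him2, ← Real.exp_add]
    apply Real.exp_le_exp.mpr
    nlinarith
  have hK1 : 0 < cotK 1 := cotK_pos one_pos
  have hK2 : 0 < cotK (1 - r) := cotK_pos hδ1
  rw [e]
  refine (norm_add_le _ _).trans ?_
  have h1' := h1.trans (mul_le_mul_of_nonneg_left b1 hK1.le)
  have h2' := h2.trans (mul_le_mul_of_nonneg_left b2 hK2.le)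
  rw [hpow]
  unfold cotK at *
  simp only [mul_one] at h1' ⊢
  nlinarith

theorem Phi_isBoundedAtImInfty_of_fract {r s : ℝ} (hr0 : 0 ≤ r) (hr1 : r < 1) :
    IsBoundedAtImInfty (Phi r s) := by
  rw [UpperHalfPlane.isBoundedAtImInfty_iff]
  have hρ : rexp (-2 * π) < 1 := by
    rw [Real.exp_lt_one_iff]
    have : 0 < 2 * π := by positivity
    linarith
  have hu : Summable fun m : ℕ+ =>
      (cotK 1 + cotK (1 - r) * rexp (2 * π * r)) * rexp (-2 * π) ^ (m : ℕ) := by
    have := (summable_geometric_of_lt_one (Real.exp_pos _).le hρ).mul_left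
      (cotK 1 + cotK (1 - r) * rexp (2 * π * r))
    exact this.subtype _
  set U : ℝ := ∑' m : ℕ+, (cotK 1 + cotK (1 - r) * rexp (2 * π * r)) * rexp (-2 * π) ^ (m : ℕ)
    with hU
  refine ⟨‖2 * π * Complex.I * r‖ + ((‖(π : ℂ) * Complex.cot (π * s)‖ + (cotK r + π)) + U), 1,
    fun τ hτ => ?_⟩
  have hz : 1 ≤ (τ : ℂ).im := hτ
  rw [Phi_eq_PhiC]
  unfold PhiC
  refine (norm_add_le _ _).trans (add_le_add_right ?_ _)
  refine (norm_add_le _ _).trans (add_le_add ?_ ?_)
  · -- the main cotangent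
    rcases eq_or_lt_of_le hr0 with h0 | hpos
    · rw [← h0]
      simp only [ofReal_zero, zero_mul, zero_add]
      have h1 : 0 ≤ cotK 0 + π := by
        unfold cotK; simp; positivity
      linarith [norm_nonneg ((π : ℂ) * Complex.cot (π * s))]
    · have him : ((r : ℂ) * (τ : ℂ) + s).im = r * (τ : ℂ).im := by
        simp [add_im, mul_im]
      have h1 := norm_pi_cot_add_pi_I_le_of_le (w := (r : ℂ) * (τ : ℂ) + s) hpos
        (by rw [him]; nlinarith)
      have hexp : rexp (-2 * π * ((r : ℂ) * (τ : ℂ) + s).im) ≤ 1 := by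
        rw [Real.exp_le_one_iff, him]
        have : 0 < 2 * π := by positivity
        have : 0 ≤ r * (τ : ℂ).im := by nlinarith
        nlinarith
      have hK : 0 < cotK r := cotK_pos hpos
      have h2 : ‖π * Complex.cot (π * ((r : ℂ) * (τ : ℂ) + s)) + π * Complex.I‖ ≤ cotK r := by
        refine h1.trans ?_
        have := mul_le_mul_of_nonneg_left hexp hK.le
        unfold cotK at *
        linarith
      have h3 : ‖(π : ℂ) * Complex.I‖ = π := by
        rw [norm_mul, Complex.norm_I, mul_one, Complex.norm_real, Real.norm_eq_abs,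
          abs_of_pos Real.pi_pos]
      have h4 : ‖π * Complex.cot (π * ((r : ℂ) * (τ : ℂ) + s))‖ ≤ cotK r + π := by
        have := norm_sub_le (π * Complex.cot (π * ((r : ℂ) * (τ : ℂ) + s)) + π * Complex.I)
          ((π : ℂ) * Complex.I)
        rw [add_sub_cancel_right, h3] at this
        linarith
      linarith [norm_nonneg ((π : ℂ) * Complex.cot (π * s))]
  · -- the tail
    have hbound : ∀ m : ℕ+, ‖termC r s m (τ : ℂ)‖ ≤
        (cotK 1 + cotK (1 - r) * rexp (2 * π * r)) * rexp (-2 * π) ^ (m : ℕ) :=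
      fun m => norm_termC_le_of_fract r s hr0 hr1 m hz
    have hsn : Summable fun m : ℕ+ => ‖termC r s m (τ : ℂ)‖ :=
      Summable.of_nonneg_of_le (fun _ => norm_nonneg _) hbound hu
    exact (norm_tsum_le_tsum_norm hsn).trans (hsn.tsum_le_tsum hbound hu)

/-- **(KE2)** `Φ_{(r,s)}` is bounded at `i∞`. -/
theorem Phi_isBoundedAtImInfty {r s : ℝ} (hrs : NotInt r s) : IsBoundedAtImInfty (Phi r s) := by
  have h : Phi r s = Phi (Int.fract r) s := funext fun τ => Phi_eq_Phi_fract hrs τ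
  rw [h]
  exact Phi_isBoundedAtImInfty_of_fract (Int.fract_nonneg r) (Int.fract_lt_one r)

/-- **(KE1)** in the vocabulary of `Seams.lean`. -/
theorem kE1 : KE1 := fun _ _ hrs => Phi_mdifferentiable hrs

/-- **(KE2)** in the vocabulary of `Seams.lean`. -/
theorem kE2 : KE2 := fun _ _ hrs => Phi_isBoundedAtImInfty hrs

end Fermat.Agent.DS.E1
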