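import Fermat.Agent.DS.E1.CotBound

/-!
# PROGRAMME III, kernel E1, leaf KC (helper6): periodicity and quasi-periodicity of `Ψ`

* `Psi_add_one`  : `Ψ(z + 1; τ) = Ψ(z; τ)` (termwise, `cot` has period `π`);
* `Psi_add_tau`  : `Ψ(z + τ; τ) = Ψ(z; τ) - 2πi` (telescoping of the symmetric partial sums
  `∑_{|m| ≤ M} π cot π(z + mτ)` and `π cot π(z ± Mτ) → ∓ πi`);
* `kC : KC`.
-/

set_option autoImplicit false

noncomputable section

namespace Fermat.Agent.DS.E1

open UpperHalfPlane Complex Real Filter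
open scoped Topology

/-- `cot` has period `π`. -/
theorem cot_add_pi' (x : ℂ) : Complex.cot (x + π) = Complex.cot x := by
  rw [Complex.cot_eq_cos_div_sin, Complex.cot_eq_cos_div_sin, Complex.cos_add_pi,
    Complex.sin_add_pi, neg_div_neg_eq]

/-- `π cot π(w + 1) = π cot πw`. -/
theorem pi_cot_add_one (w : ℂ) :
    (π : ℂ) * Complex.cot (π * (w + 1)) = π * Complex.cot (π * w) := by
  rw [mul_add, mul_one, cot_add_pi']

theorem cotPair_add_one (z : ℂ) (τ : ℍ) (m : ℕ+) : cotPair (z + 1) τ m = cotPair z τ m := by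
  unfold cotPair
  have e1 : z + 1 - (m : ℂ) * τ = (z - (m : ℂ) * τ) + 1 := by ring
  have e2 : z + 1 + (m : ℂ) * τ = (z + (m : ℂ) * τ) + 1 := by ring
  rw [e1, e2, pi_cot_add_one, pi_cot_add_one]

/-- (KC-1) `Ψ` has period `1` in `z`. -/
theorem Psi_add_one (τ : ℍ) (z : ℂ) : Psi (z + 1) τ = Psi z τ := by
  unfold Psi
  rw [pi_cot_add_one]
  congr 1
  exact tsum_congr fun m => cotPair_add_one z τ m

/-- the `M`-th partial sum of the pairs -/
def pairSum (z : ℂ) (τ : ℍ) (M : ℕ) : ℂ := ∑ k ∈ Finset.range M, cotPair z τ k.succPNat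

theorem cotPair_succPNat (z : ℂ) (τ : ℍ) (k : ℕ) :
    cotPair z τ k.succPNat = π * Complex.cot (π * (z - ((k : ℂ) + 1) * τ)) +
      π * Complex.cot (π * (z + ((k : ℂ) + 1) * τ)) := by
  unfold cotPair
  simp [Nat.succPNat_coe]

theorem tendsto_pairSum (z : ℂ) (τ : ℍ) :
    Tendsto (pairSum z τ) atTop (𝓝 (∑' m : ℕ+, cotPair z τ m)) := by
  have hs : Summable fun k : ℕ => cotPair z τ k.succPNat :=
    (Equiv.pnatEquivNat.symm.summable_iff (f := cotPair z τ)).mpr (summable_cotPair z τ)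
  have he : ∑' k : ℕ, cotPair z τ k.succPNat = ∑' m : ℕ+, cotPair z τ m :=
    Equiv.pnatEquivNat.symm.tsum_eq (cotPair z τ)
  rw [← he]
  exact hs.hasSum.tendsto_sum_nat

/-- the telescoping identity for the symmetric partial sums -/
theorem pairSum_add_tau (z : ℂ) (τ : ℍ) (M : ℕ) :
    π * Complex.cot (π * (z + τ)) + pairSum (z + τ) τ M =
      π * Complex.cot (π * z) + pairSum z τ M - π * Complex.cot (π * (z - (M : ℂ) * τ)) +
        π * Complex.cot (π * (z + ((M : ℂ) + 1) * τ)) := by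
  induction M with
  | zero => simp [pairSum]
  | succ M ih =>
    have hL : pairSum (z + τ) τ (M + 1) = pairSum (z + τ) τ M + cotPair (z + τ) τ M.succPNat := by
      unfold pairSum; rw [Finset.sum_range_succ]
    have hR : pairSum z τ (M + 1) = pairSum z τ M + cotPair z τ M.succPNat := by
      unfold pairSum; rw [Finset.sum_range_succ]
    rw [hL, hR, cotPair_succPNat, cotPair_succPNat]
    have e1 : z + τ - ((M : ℂ) + 1) * τ = z - (M : ℂ) * τ := by ring
    have e2 : z + τ + ((M : ℂ) + 1) * τ = z + (((M + 1 : ℕ) : ℂ) + 1) * τ := by push_cast; ring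
    have e3 : z - ((M + 1 : ℕ) : ℂ) * τ = z - ((M : ℂ) + 1) * τ := by push_cast; ring
    rw [e1, e2, e3]
    linear_combination ih

/-- (KC-2) the quasi-period of `Ψ` along `τ` (no hypothesis on `z` is needed). -/
theorem Psi_add_tau (τ : ℍ) (z : ℂ) : Psi (z + τ) τ = Psi z τ - 2 * π * Complex.I := by
  have hL : Tendsto (fun M : ℕ => π * Complex.cot (π * (z + τ)) + pairSum (z + τ) τ M) atTop
      (𝓝 (Psi (z + τ) τ)) := (tendsto_pairSum (z + τ) τ).const_add _
  have h1 : Tendsto (fun M : ℕ => π * Complex.cot (π * (z + ((M : ℂ) + 1) * τ))) atTop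
      (𝓝 (-(π * Complex.I))) := by
    have := (tendsto_pi_cot_add z τ).comp (tendsto_add_atTop_nat 1)
    refine this.congr fun M => ?_
    simp only [Function.comp_apply]
    push_cast
    rfl
  have hR : Tendsto (fun M : ℕ => π * Complex.cot (π * z) + pairSum z τ M
      - π * Complex.cot (π * (z - (M : ℂ) * τ)) + π * Complex.cot (π * (z + ((M : ℂ) + 1) * τ)))
      atTop (𝓝 (Psi z τ - π * Complex.I + -(π * Complex.I))) :=
    (((tendsto_pairSum z τ).const_add _).sub (tendsto_pi_cot_sub z τ)).add h1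
  have hLR : (fun M : ℕ => π * Complex.cot (π * (z + τ)) + pairSum (z + τ) τ M) =
      fun M : ℕ => π * Complex.cot (π * z) + pairSum z τ M
      - π * Complex.cot (π * (z - (M : ℂ) * τ)) + π * Complex.cot (π * (z + ((M : ℂ) + 1) * τ)) :=
    funext fun M => pairSum_add_tau z τ M
  rw [hLR] at hL
  rw [tendsto_nhds_unique hL hR]
  ring

/-- **(KC)** -/
theorem kC : KC :=
  ⟨fun τ z => Psi_add_one τ z, fun τ z _ => Psi_add_tau τ z⟩

end Fermat.Agent.DS.E1
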