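import Fermat.Agent.DS.E1.Seams

/-!
# PROGRAMME III, kernel E1, leaf KE3: the `q`-expansion of `Φ_{(0,s)}` (helper29)

For real `s`, `q = e^{2πiτ}`:
`(Φ_{(0,s)}(τ) - π cot πs)/(2πi) = Σ_{N ≥ 1} (Σ_{k ∣ N} (e^{-2πisk} - e^{2πisk})) q^N`.

All auxiliary declarations live in the sub-namespace `Fermat.Agent.DS.E1.QExp`; the contract
literal is `Fermat.Agent.DS.E1.Phi_zero_hasSum`.

* `pi_cot_eq_of_exp_ne_one` : `π cot πw = πi - 2πi/(1 - e^{2πiw})`;
* `cotPair_div_eq` : `cotPair z τ m/(2πi) = 1/(1 - e^{-2πiz}q^m) - 1/(1 - e^{2πiz}q^m)`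
  when `|Im z| < m Im τ`;
* `hasSum_cotPair_real` : the geometric expansion of `cotPair s τ m` for real `s`;
* `hasSum_lambert` : the Lambert rearrangement `Σ_m Σ_n c_n r^{mn} = Σ_N (Σ_{k∣N} c_k) r^N`
  for bounded `c`;
* `kE3 : KE3` : the seam of `Seams.lean`;  `QExp.cotPair_eq_tsum`;
* `Phi_zero_hasSum` : KE3;  `QExp.Phi_zero_hasSum_nat` : the `ℕ`-indexed form
  `Φ_{(0,s)}(τ) = Σ_n PhiCoeff s n · 𝕢 1 τ ^ n` (shape of main's `qExpansion_eq_of_hasSum`).
-/

set_option autoImplicit false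
set_option linter.unusedSectionVars false
set_option linter.unusedVariables false

noncomputable section

namespace Fermat.Agent.DS.E1

open UpperHalfPlane Complex Real Filter
open scoped MatrixGroups ModularForm Topology

namespace QExp

/-- `π cot πw = πi - 2πi/(1 - t)`, `t = e^{2πiw} ≠ 1` -/
theorem pi_cot_eq_of_exp_ne_one (w : ℂ) (h : cexp (2 * π * Complex.I * w) ≠ 1) :
    π * Complex.cot (π * w) =
      π * Complex.I - 2 * π * Complex.I / (1 - cexp (2 * π * Complex.I * w)) := by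
  rw [Complex.cot_pi_eq_exp_ratio]
  set t := cexp (2 * π * Complex.I * w) with ht
  have h1 : 1 - t ≠ 0 := sub_ne_zero.mpr (Ne.symm h)
  have hI : Complex.I ≠ 0 := Complex.I_ne_zero
  have hI2 : Complex.I * Complex.I = -1 := Complex.I_mul_I
  field_simp
  linear_combination (1 + t) * hI2

/-- `cot` is odd -/
theorem cot_neg_eq (x : ℂ) : Complex.cot (-x) = -Complex.cot x := by
  rw [Complex.cot_eq_cos_div_sin, Complex.cot_eq_cos_div_sin, Complex.cos_neg, Complex.sin_neg,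
    div_neg]

/-- the closed form of a pair of cotangents -/
theorem cotPair_eq_of_ne_one (z : ℂ) (τ : ℍ) (m : ℕ+)
    (ha : cexp (2 * π * Complex.I * (-z + (m : ℂ) * τ)) ≠ 1)
    (hb : cexp (2 * π * Complex.I * (z + (m : ℂ) * τ)) ≠ 1) :
    cotPair z τ m = 2 * π * Complex.I *
      ((1 - cexp (2 * π * Complex.I * (-z + (m : ℂ) * τ)))⁻¹ -
        (1 - cexp (2 * π * Complex.I * (z + (m : ℂ) * τ)))⁻¹) := by
  unfold cotPair
  have e : (π : ℂ) * (z - (m : ℂ) * τ) = -(π * (-z + (m : ℂ) * τ)) := by ring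
  rw [e, cot_neg_eq, pi_cot_eq_of_exp_ne_one _ hb, mul_neg, pi_cot_eq_of_exp_ne_one _ ha]
  ring

/-- the coefficient `e^{-2πisk} - e^{2πisk}` -/
def sinCoeff (s : ℝ) (k : ℕ) : ℂ :=
  cexp (-2 * π * Complex.I * s * k) - cexp (2 * π * Complex.I * s * k)

theorem norm_exp_real_mul_I (x : ℝ) : ‖cexp (2 * π * Complex.I * x)‖ = 1 := by
  have : 2 * (π : ℂ) * Complex.I * x = ((2 * π * x : ℝ) : ℂ) * Complex.I := by push_cast; ring
  rw [this, Complex.norm_exp_ofReal_mul_I]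

theorem norm_sinCoeff_le (s : ℝ) (k : ℕ) : ‖sinCoeff s k‖ ≤ 2 := by
  unfold sinCoeff
  refine (norm_sub_le _ _).trans ?_
  have h1 : ‖cexp (-2 * π * Complex.I * s * k)‖ = 1 := by
    have : -2 * (π : ℂ) * Complex.I * s * k = 2 * π * Complex.I * ((-(s * k) : ℝ) : ℂ) := by
      push_cast; ring
    rw [this, norm_exp_real_mul_I]
  have h2 : ‖cexp (2 * π * Complex.I * s * k)‖ = 1 := by
    have : 2 * (π : ℂ) * Complex.I * s * k = 2 * π * Complex.I * ((s * k : ℝ) : ℂ) := by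
      push_cast; ring
    rw [this, norm_exp_real_mul_I]
  rw [h1, h2]
  norm_num

theorem sinCoeff_zero (s : ℝ) : sinCoeff s 0 = 0 := by
  simp [sinCoeff]

/-- `q = e^{2πiτ}` -/
def qq (τ : ℍ) : ℂ := cexp (2 * π * Complex.I * τ)

theorem norm_qq_lt_one (τ : ℍ) : ‖qq τ‖ < 1 := UpperHalfPlane.norm_exp_two_pi_I_lt_one τ

/-- the geometric expansion of a pair of cotangents at a real point -/
theorem hasSum_cotPair_real (s : ℝ) (τ : ℍ) (m : ℕ+) :
    HasSum (fun n : ℕ+ => sinCoeff s n * qq τ ^ ((m : ℕ) * (n : ℕ)))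
      (cotPair s τ m / (2 * π * Complex.I)) := by
  set a : ℂ := cexp (2 * π * Complex.I * (-(s : ℂ) + (m : ℂ) * τ)) with ha
  set b : ℂ := cexp (2 * π * Complex.I * ((s : ℂ) + (m : ℂ) * τ)) with hb
  have hqm : ‖qq τ ^ (m : ℕ)‖ < 1 := by
    rw [norm_pow]
    exact pow_lt_one₀ (norm_nonneg _) (norm_qq_lt_one τ) m.ne_zero
  have ea : a = cexp (2 * π * Complex.I * ((-s : ℝ) : ℂ)) * qq τ ^ (m : ℕ) := by
    rw [ha, qq, ← Complex.exp_nat_mul, ← Complex.exp_add]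
    congr 1
    push_cast
    ring
  have eb : b = cexp (2 * π * Complex.I * ((s : ℝ) : ℂ)) * qq τ ^ (m : ℕ) := by
    rw [hb, qq, ← Complex.exp_nat_mul, ← Complex.exp_add]
    congr 1
    ring
  have na : ‖a‖ < 1 := by rw [ea, norm_mul, norm_exp_real_mul_I, one_mul]; exact hqm
  have nb : ‖b‖ < 1 := by rw [eb, norm_mul, norm_exp_real_mul_I, one_mul]; exact hqm
  have ha1 : a ≠ 1 := fun h => by rw [h, norm_one] at na; exact lt_irrefl _ na
  have hb1 : b ≠ 1 := fun h => by rw [h, norm_one] at nb; exact lt_irrefl _ nb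
  have hval : cotPair s τ m / (2 * π * Complex.I) = (1 - a)⁻¹ - (1 - b)⁻¹ := by
    rw [cotPair_eq_of_ne_one (s : ℂ) τ m ha1 hb1, ← ha, ← hb]
    have : (2 * (π : ℂ) * Complex.I) ≠ 0 := by
      simp [Real.pi_ne_zero, Complex.I_ne_zero]
    rw [mul_div_cancel_left₀ _ this]
  rw [hval]
  have hsum : HasSum (fun n : ℕ => a ^ n - b ^ n) ((1 - a)⁻¹ - (1 - b)⁻¹) :=
    (hasSum_geometric_of_norm_lt_one na).sub (hasSum_geometric_of_norm_lt_one nb)
  have hterm : ∀ n : ℕ, a ^ n - b ^ n = sinCoeff s n * qq τ ^ ((m : ℕ) * n) := by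
    intro n
    rw [ea, eb, mul_pow, mul_pow, ← pow_mul, sinCoeff, ← Complex.exp_nat_mul,
      ← Complex.exp_nat_mul, sub_mul]
    congr 2
    · congr 1; push_cast; ring
    · congr 1; ring
  have h2 : HasSum (fun n : ℕ => sinCoeff s n * qq τ ^ ((m : ℕ) * n)) ((1 - a)⁻¹ - (1 - b)⁻¹) := by
    refine hsum.congr_fun ?_
    intro n; exact (hterm n).symm
  have h3 := (hasSum_pnat_iff (f := fun n : ℕ => sinCoeff s n * qq τ ^ ((m : ℕ) * n))
    (a := (1 - a)⁻¹ - (1 - b)⁻¹)).mpr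
  apply h3
  simpa [sinCoeff_zero] using h2

/-- **the Lambert rearrangement** for bounded coefficients:
`Σ_m Σ_n c_n r^{mn} = Σ_N (Σ_{k ∣ N} c_k) r^N`. -/
theorem hasSum_lambert (c : ℕ → ℂ) (C : ℝ) (hc : ∀ n, ‖c n‖ ≤ C) {r : ℂ} (hr : ‖r‖ < 1)
    (g : ℕ+ → ℂ)
    (hg : ∀ m : ℕ+, HasSum (fun n : ℕ+ => c n * r ^ ((m : ℕ) * (n : ℕ))) (g m)) :
    ∃ A : ℂ, HasSum g A ∧
      HasSum (fun N : ℕ+ => (∑ k ∈ (N : ℕ).divisors, c k) * r ^ (N : ℕ)) A := by
  -- summability of the double family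
  have hC : 0 ≤ C := (norm_nonneg _).trans (hc 0)
  have hsummR : Summable fun p : ℕ+ × ℕ+ => C * ‖r‖ ^ ((p.1 : ℕ) * (p.2 : ℕ)) := by
    have h := summable_prod_mul_pow (𝕜 := ℝ) 0 (r := ‖r‖) (by rwa [norm_norm])
    simp only [pow_zero, one_mul] at h
    exact h.mul_left C
  have hsumm : Summable fun p : ℕ+ × ℕ+ => c p.2 * r ^ ((p.1 : ℕ) * (p.2 : ℕ)) := by
    refine Summable.of_norm_bounded hsummR fun p => ?_
    rw [norm_mul, norm_pow]
    exact mul_le_mul_of_nonneg_right (hc _) (by positivity)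
  refine ⟨∑' p : ℕ+ × ℕ+, c p.2 * r ^ ((p.1 : ℕ) * (p.2 : ℕ)), ?_, ?_⟩
  · exact hsumm.hasSum.prod_fiberwise hg
  · have h1 := (sigmaAntidiagonalEquivProd.hasSum_iff
      (f := fun p : ℕ+ × ℕ+ => c p.2 * r ^ ((p.1 : ℕ) * (p.2 : ℕ)))).mpr hsumm.hasSum
    have h2 := h1.sigma (fun N => (hasSum_fintype _))
    refine h2.congr_fun ?_
    intro N
    simp only [Function.comp_apply, sigmaAntidiagonalEquivProd, divisorsAntidiagonalFactors,
      Equiv.coe_fn_mk, PNat.mk_coe, Finset.univ_eq_attach]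
    rw [(N : ℕ).divisorsAntidiagonal.sum_attach (fun x : ℕ × ℕ => c x.2 * r ^ (x.1 * x.2)),
      Nat.sum_divisorsAntidiagonal (fun x y => c y * r ^ (x * y)), Finset.sum_mul]
    rw [← Nat.sum_div_divisors (N : ℕ) (fun k => c k * r ^ (N : ℕ))]
    refine Finset.sum_congr rfl fun i hi => ?_
    rw [Nat.mul_div_cancel' (Nat.dvd_of_mem_divisors hi)]

/-- the Lambert series of `Ψ` at a real point -/
theorem hasSum_Psi_real (s : ℝ) (τ : ℍ) :
    HasSum (fun N : ℕ+ => (∑ k ∈ (N : ℕ).divisors, sinCoeff s k) * qq τ ^ (N : ℕ))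
      ((Psi s τ - π * Complex.cot (π * s)) / (2 * π * Complex.I)) := by
  obtain ⟨A, hA1, hA2⟩ := hasSum_lambert (sinCoeff s) 2 (norm_sinCoeff_le s) (norm_qq_lt_one τ)
    (fun m => cotPair s τ m / (2 * π * Complex.I)) (hasSum_cotPair_real s τ)
  have h2pi : (2 * (π : ℂ) * Complex.I) ≠ 0 := by
    simp [Real.pi_ne_zero, Complex.I_ne_zero]
  have h3 : HasSum (cotPair s τ) (2 * π * Complex.I * A) := by
    have := hA1.mul_left (2 * π * Complex.I)
    refine this.congr_fun ?_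
    intro m
    rw [mul_div_cancel₀ _ h2pi]
  have hA : (Psi s τ - π * Complex.cot (π * s)) / (2 * π * Complex.I) = A := by
    unfold Psi
    rw [h3.tsum_eq, add_sub_cancel_left, mul_div_cancel_left₀ _ h2pi]
  rw [hA]
  exact hA2

theorem Phi_zero_eq (s : ℝ) (τ : ℍ) : Phi 0 s τ = Psi s τ := by
  unfold Phi
  simp

/-- **(KE3)** the `q`-expansion of `Φ_{(0,s)}`, in the variable `q = e^{2πiτ}` -/
theorem Phi_zero_hasSum_exp (s : ℝ) (τ : ℍ) :
    HasSum (fun N : ℕ+ => (∑ k ∈ (N : ℕ).divisors,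
        (cexp (-2 * π * Complex.I * s * k) - cexp (2 * π * Complex.I * s * k))) *
          cexp (2 * π * Complex.I * τ) ^ (N : ℕ))
      ((Phi 0 s τ - π * Complex.cot (π * s)) / (2 * π * Complex.I)) := by
  rw [Phi_zero_eq]
  exact hasSum_Psi_real s τ

end QExp

open QExp

/-- **(KE3)**, the literal of the contract (finding #1948) -/
theorem Phi_zero_hasSum (s : ℝ) (hs : ∀ n : ℤ, s ≠ n) (τ : ℍ) :
    HasSum (fun N : ℕ+ => (∑ k ∈ (N : ℕ).divisors,
        (cexp (-2 * π * Complex.I * s * k) - cexp (2 * π * Complex.I * s * k))) *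
          Function.Periodic.qParam 1 τ ^ (N : ℕ))
      ((Phi 0 s τ - π * Complex.cot (π * s)) / (2 * π * Complex.I)) := by
  have h := Phi_zero_hasSum_exp s τ
  have e : Function.Periodic.qParam 1 (τ : ℂ) = cexp (2 * π * Complex.I * τ) := by
    simp [Function.Periodic.qParam]
  rw [e]
  exact h

/-- **(KE3)** in the shape of `Seams.lean` -/
theorem kE3 : KE3 := by
  intro s hs τ
  have h := Phi_zero_hasSum s hs τ
  have e : ∀ k : ℕ, cexp (-(2 * π * Complex.I * s * k)) = cexp (-2 * π * Complex.I * s * k) := by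
    intro k
    congr 1
    ring
  simp only [e]
  exact h

namespace QExp

/-- `cotPair s τ m = 2πi Σ_{n ≥ 1} (e^{-2πisn} - e^{2πisn}) q^{mn}` for real `s` -/
theorem cotPair_eq_tsum (s : ℝ) (τ : ℍ) (m : ℕ+) :
    cotPair s τ m = 2 * π * Complex.I *
      ∑' n : ℕ+, (cexp (-2 * π * Complex.I * s * n) - cexp (2 * π * Complex.I * s * n)) *
        cexp (2 * π * Complex.I * τ) ^ ((m : ℕ) * (n : ℕ)) := by
  have h := (hasSum_cotPair_real s τ m).tsum_eq
  have h2pi : (2 * (π : ℂ) * Complex.I) ≠ 0 := by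
    simp [Real.pi_ne_zero, Complex.I_ne_zero]
  have h' : (∑' n : ℕ+, (cexp (-2 * π * Complex.I * s * n) - cexp (2 * π * Complex.I * s * n)) *
        cexp (2 * π * Complex.I * τ) ^ ((m : ℕ) * (n : ℕ))) = cotPair s τ m / (2 * π * Complex.I) := h
  rw [h', mul_div_cancel₀ _ h2pi]

/-- the `n`-th coefficient of the `q`-expansion of `Φ_{(0,s)}` -/
def PhiCoeff (s : ℝ) (n : ℕ) : ℂ :=
  if n = 0 then π * Complex.cot (π * s)
  else 2 * π * Complex.I * ∑ k ∈ n.divisors,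
    (cexp (-2 * π * Complex.I * s * k) - cexp (2 * π * Complex.I * s * k))

theorem PhiCoeff_zero (s : ℝ) : PhiCoeff s 0 = π * Complex.cot (π * s) := by
  simp [PhiCoeff]

theorem PhiCoeff_of_ne_zero (s : ℝ) {n : ℕ} (hn : n ≠ 0) :
    PhiCoeff s n = 2 * π * Complex.I * ∑ k ∈ n.divisors,
      (cexp (-2 * π * Complex.I * s * k) - cexp (2 * π * Complex.I * s * k)) := by
  simp [PhiCoeff, hn]

/-- **(KE3)**, `ℕ`-indexed: `Φ_{(0,s)}(τ) = π cot πs + 2πi Σ_{N ≥ 1} (Σ_{k∣N} (e^{-2πisk} - e^{2πisk})) q^N`,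
in the shape consumed by `qExpansion_eq_of_hasSum`. -/
theorem Phi_zero_hasSum_nat (s : ℝ) (τ : ℍ) :
    HasSum (fun n : ℕ => PhiCoeff s n * Function.Periodic.qParam 1 τ ^ n) (Phi 0 s τ) := by
  have e : Function.Periodic.qParam 1 (τ : ℂ) = cexp (2 * π * Complex.I * τ) := by
    simp [Function.Periodic.qParam]
  have h2pi : (2 * (π : ℂ) * Complex.I) ≠ 0 := by
    simp [Real.pi_ne_zero, Complex.I_ne_zero]
  set V : ℂ := π * Complex.cot (π * s) with hV
  have h : HasSum (fun N : ℕ+ => 2 * π * Complex.I * ((∑ k ∈ (N : ℕ).divisors,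
        (cexp (-2 * π * Complex.I * s * k) - cexp (2 * π * Complex.I * s * k))) *
          cexp (2 * π * Complex.I * τ) ^ (N : ℕ)))
      (2 * π * Complex.I * ((Phi 0 s τ - V) / (2 * π * Complex.I))) :=
    (Phi_zero_hasSum_exp s τ).mul_left (2 * π * Complex.I)
  have hval : 2 * π * Complex.I * ((Phi 0 s τ - V) / (2 * π * Complex.I)) = Phi 0 s τ - V :=
    mul_div_cancel₀ _ h2pi
  rw [hval] at h
  set f : ℕ → ℂ := fun n => PhiCoeff s n * Function.Periodic.qParam 1 τ ^ n with hf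
  have h' : HasSum (fun N : ℕ+ => f N) (Phi 0 s τ - V) := by
    refine h.congr_fun ?_
    intro N
    rw [hf]
    simp only
    rw [PhiCoeff_of_ne_zero s N.ne_zero, e, mul_assoc]
  have h3 : HasSum f (Phi 0 s τ - V + f 0) := hasSum_pnat_iff.mp h'
  have hf0 : f 0 = V := by
    rw [hf]
    simp only [pow_zero, mul_one, PhiCoeff_zero]
    exact hV.symm
  rw [hf0, sub_add_cancel] at h3
  exact h3

end QExp

end Fermat.Agent.DS.E1
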