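import Fermat.Agent.DS.E1.Defs

/-!
# PROGRAMME III, kernel E1: the exponential approach of `π cot πw` to `∓ πi` (helper18)

Shared by KB (summability of the row sums), KC (telescoping limits) and KE (locally uniform
convergence, boundedness at `i∞`).

* `pi_cot_add_pi_I` : `π cot πw + πi = -2πi t/(1-t)`, `t = e^{2πiw}`;
* `norm_pi_cot_add_pi_I_le` (`0 < Im w`), `norm_pi_cot_sub_pi_I_le` (`Im w < 0`);
* `norm_cotPair_le`, `summable_norm_cotPair`, `summable_cotPair`;
* `tendsto_pi_cot_add`, `tendsto_pi_cot_sub` : `π cot π(z ± Mτ) → ∓ πi` as `M → ∞`.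
-/

set_option autoImplicit false
set_option linter.unusedSectionVars false
set_option linter.unusedVariables false

noncomputable section

namespace Fermat.Agent.DS.E1

open UpperHalfPlane Complex Real Filter
open scoped MatrixGroups ModularForm Topology

/-- `π cot πw + πi = -2πi t/(1-t)` with `t = e^{2πiw}` -/
theorem pi_cot_add_pi_I (w : ℂ) (h : 1 - cexp (2 * π * Complex.I * w) ≠ 0) :
    π * Complex.cot (π * w) + π * Complex.I =
      -2 * π * Complex.I * cexp (2 * π * Complex.I * w) / (1 - cexp (2 * π * Complex.I * w)) := by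
  rw [Complex.cot_pi_eq_exp_ratio]
  set t := cexp (2 * π * Complex.I * w) with ht
  have hI : Complex.I ≠ 0 := Complex.I_ne_zero
  have hI2 : Complex.I * Complex.I = -1 := Complex.I_mul_I
  set c := (t + 1) / (Complex.I * (1 - t)) with hcdef
  have hc : c * (Complex.I * (1 - t)) = t + 1 := div_mul_cancel₀ _ (mul_ne_zero hI h)
  have hc2 : c * (1 - t) = -Complex.I * (t + 1) := by
    linear_combination (-Complex.I) * hc + (c * (1 - t)) * hI2
  rw [eq_div_iff h]
  linear_combination (π : ℂ) * hc2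

theorem cot_neg' (x : ℂ) : Complex.cot (-x) = -Complex.cot x := by
  rw [Complex.cot_eq_cos_div_sin, Complex.cot_eq_cos_div_sin, Complex.cos_neg, Complex.sin_neg,
    div_neg]

theorem norm_exp_two_pi_I_mul (w : ℂ) : ‖cexp (2 * π * Complex.I * w)‖ = rexp (-2 * π * w.im) := by
  rw [Complex.norm_exp]
  congr 1
  simp only [mul_re, mul_im, re_ofNat, ofReal_re, im_ofNat, ofReal_im, mul_zero, sub_zero,
    Complex.I_re, Complex.I_im, mul_one, zero_mul, add_zero]
  ring

/-- the bound in the upper half plane -/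
theorem norm_pi_cot_add_pi_I_le {w : ℂ} (hw : 0 < w.im) :
    ‖π * Complex.cot (π * w) + π * Complex.I‖ ≤
      2 * π * rexp (-2 * π * w.im) / (1 - rexp (-2 * π * w.im)) := by
  set t := cexp (2 * π * Complex.I * w) with ht
  have hnt : ‖t‖ = rexp (-2 * π * w.im) := norm_exp_two_pi_I_mul w
  have hlt : rexp (-2 * π * w.im) < 1 := by
    rw [Real.exp_lt_one_iff]
    have : 0 < 2 * π * w.im := by positivity
    linarith
  have h1t : 1 - t ≠ 0 := by
    intro h0
    have : t = 1 := (sub_eq_zero.mp h0).symm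
    rw [this, norm_one] at hnt
    linarith
  rw [pi_cot_add_pi_I w h1t, norm_div, norm_mul, norm_mul, norm_mul, norm_neg, Complex.norm_ofNat,
    Complex.norm_real, Complex.norm_I, mul_one, hnt, Real.norm_eq_abs, abs_of_pos Real.pi_pos]
  have hden : 1 - rexp (-2 * π * w.im) ≤ ‖1 - t‖ := by
    have := norm_sub_norm_le (1 : ℂ) t
    rw [norm_one, hnt] at this
    exact this
  have hpos : 0 < 1 - rexp (-2 * π * w.im) := by linarith
  exact div_le_div_of_nonneg_left (by positivity) hpos hden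

/-- the bound in the lower half plane -/
theorem norm_pi_cot_sub_pi_I_le {w : ℂ} (hw : w.im < 0) :
    ‖π * Complex.cot (π * w) - π * Complex.I‖ ≤
      2 * π * rexp (2 * π * w.im) / (1 - rexp (2 * π * w.im)) := by
  have h := norm_pi_cot_add_pi_I_le (w := -w) (by simpa using hw)
  have e : π * Complex.cot (π * -w) + π * Complex.I =
      -(π * Complex.cot (π * w) - π * Complex.I) := by
    rw [mul_neg, cot_neg']
    ring
  rw [e, norm_neg] at h
  simpa using h

/-- a uniform version: for `δ ≤ Im w`, `δ > 0` -/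
theorem norm_pi_cot_add_pi_I_le_of_le {w : ℂ} {δ : ℝ} (hδ : 0 < δ) (hw : δ ≤ w.im) :
    ‖π * Complex.cot (π * w) + π * Complex.I‖ ≤
      2 * π / (1 - rexp (-2 * π * δ)) * rexp (-2 * π * w.im) := by
  have hw0 : 0 < w.im := lt_of_lt_of_le hδ hw
  refine (norm_pi_cot_add_pi_I_le hw0).trans ?_
  have h1 : rexp (-2 * π * w.im) ≤ rexp (-2 * π * δ) := by
    apply Real.exp_le_exp.mpr
    have : 2 * π * δ ≤ 2 * π * w.im := by gcongr
    linarith
  have h2 : rexp (-2 * π * δ) < 1 := by
    rw [Real.exp_lt_one_iff]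
    have : 0 < 2 * π * δ := by positivity
    linarith
  have hpos : 0 < 1 - rexp (-2 * π * δ) := by linarith
  rw [div_mul_eq_mul_div]
  apply div_le_div_of_nonneg_left (by positivity) hpos
  linarith

theorem norm_pi_cot_sub_pi_I_le_of_le {w : ℂ} {δ : ℝ} (hδ : 0 < δ) (hw : w.im ≤ -δ) :
    ‖π * Complex.cot (π * w) - π * Complex.I‖ ≤
      2 * π / (1 - rexp (-2 * π * δ)) * rexp (2 * π * w.im) := by
  have h := norm_pi_cot_add_pi_I_le_of_le (w := -w) hδ (by simpa using (by linarith : δ ≤ -w.im))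
  have e : π * Complex.cot (π * -w) + π * Complex.I =
      -(π * Complex.cot (π * w) - π * Complex.I) := by
    rw [mul_neg, cot_neg']
    ring
  rw [e, norm_neg] at h
  simpa using h

/-- the constant of the uniform bounds -/
def cotK (δ : ℝ) : ℝ := 2 * π / (1 - rexp (-2 * π * δ))

theorem cotK_pos {δ : ℝ} (hδ : 0 < δ) : 0 < cotK δ := by
  have h2 : rexp (-2 * π * δ) < 1 := by
    rw [Real.exp_lt_one_iff]
    have : 0 < 2 * π * δ := by positivity
    linarith
  unfold cotK
  have : 0 < 1 - rexp (-2 * π * δ) := by linarith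
  positivity

/-- `cotPair z τ m` is exponentially small once `|Im z| + Im τ ≤ m Im τ`. -/
theorem norm_cotPair_le (z : ℂ) (τ : ℍ) (m : ℕ+) (hm : |z.im| + τ.im ≤ (m : ℝ) * τ.im) :
    ‖cotPair z τ m‖ ≤
      2 * cotK τ.im * rexp (2 * π * |z.im|) * rexp (-2 * π * τ.im) ^ (m : ℕ) := by
  have hτ : 0 < τ.im := τ.im_pos
  have him1 : (z + (m : ℂ) * τ).im = z.im + (m : ℝ) * τ.im := by
    simp [add_im, mul_im]
  have him2 : (z - (m : ℂ) * τ).im = z.im - (m : ℝ) * τ.im := by
    simp [sub_im, mul_im]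
  have habs1 : -|z.im| ≤ z.im := neg_abs_le _
  have habs2 : z.im ≤ |z.im| := le_abs_self _
  have h1 := norm_pi_cot_add_pi_I_le_of_le (w := z + (m : ℂ) * τ) hτ (by rw [him1]; linarith)
  have h2 := norm_pi_cot_sub_pi_I_le_of_le (w := z - (m : ℂ) * τ) hτ (by rw [him2]; linarith)
  have e : cotPair z τ m = (π * Complex.cot (π * (z - (m : ℂ) * τ)) - π * Complex.I) +
      (π * Complex.cot (π * (z + (m : ℂ) * τ)) + π * Complex.I) := by
    unfold cotPair; ring
  rw [e]
  refine (norm_add_le _ _).trans ?_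
  have hpow : rexp (-2 * π * τ.im) ^ (m : ℕ) = rexp (-2 * π * ((m : ℝ) * τ.im)) := by
    rw [← Real.exp_nat_mul]
    congr 1
    push_cast
    ring
  have hK : 0 < cotK τ.im := cotK_pos hτ
  have b1 : rexp (-2 * π * (z + (m : ℂ) * τ).im) ≤
      rexp (2 * π * |z.im|) * rexp (-2 * π * ((m : ℝ) * τ.im)) := by
    rw [← Real.exp_add, him1]
    apply Real.exp_le_exp.mpr
    have : 0 < 2 * π := by positivity
    nlinarith
  have b2 : rexp (2 * π * (z - (m : ℂ) * τ).im) ≤
      rexp (2 * π * |z.im|) * rexp (-2 * π * ((m : ℝ) * τ.im)) := by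
    rw [← Real.exp_add, him2]
    apply Real.exp_le_exp.mpr
    have : 0 < 2 * π := by positivity
    nlinarith
  rw [hpow]
  have h1' : ‖π * Complex.cot (π * (z + (m : ℂ) * τ)) + π * Complex.I‖ ≤
      cotK τ.im * (rexp (2 * π * |z.im|) * rexp (-2 * π * ((m : ℝ) * τ.im))) :=
    h1.trans (mul_le_mul_of_nonneg_left b1 hK.le)
  have h2' : ‖π * Complex.cot (π * (z - (m : ℂ) * τ)) - π * Complex.I‖ ≤
      cotK τ.im * (rexp (2 * π * |z.im|) * rexp (-2 * π * ((m : ℝ) * τ.im))) :=
    h2.trans (mul_le_mul_of_nonneg_left b2 hK.le)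
  linarith

theorem summable_norm_cotPair (z : ℂ) (τ : ℍ) : Summable fun m : ℕ+ => ‖cotPair z τ m‖ := by
  have hτ : 0 < τ.im := τ.im_pos
  have hρ : rexp (-2 * π * τ.im) < 1 := by
    rw [Real.exp_lt_one_iff]
    have : 0 < 2 * π * τ.im := by positivity
    linarith
  have hgeo : Summable fun m : ℕ+ =>
      2 * cotK τ.im * rexp (2 * π * |z.im|) * rexp (-2 * π * τ.im) ^ (m : ℕ) := by
    have := (summable_geometric_of_lt_one (Real.exp_pos _).le hρ).mul_left
      (2 * cotK τ.im * rexp (2 * π * |z.im|))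
    exact this.subtype _
  refine Summable.of_norm_bounded_eventually hgeo ?_
  -- eventually `|Im z| + Im τ ≤ m Im τ`
  obtain ⟨M, hM⟩ := exists_nat_ge ((|z.im| + τ.im) / τ.im)
  have hfin : {m : ℕ+ | (m : ℕ) < M}.Finite := by
    apply Set.Finite.of_finite_image (f := fun m : ℕ+ => (m : ℕ))
    · exact (Set.finite_lt_nat M).subset (by rintro _ ⟨m, hm, rfl⟩; exact hm)
    · exact fun a _ b _ h => PNat.coe_injective h
  filter_upwards [hfin.eventually_cofinite_notMem] with m hm
  rw [norm_norm]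
  apply norm_cotPair_le
  have hmM : (M : ℝ) ≤ (m : ℝ) := by
    have : M ≤ (m : ℕ) := by
      by_contra h
      exact hm (by simpa using h)
    exact_mod_cast this
  have := (div_le_iff₀ hτ).mp (hM.trans hmM)
  linarith

theorem summable_cotPair (z : ℂ) (τ : ℍ) : Summable (cotPair z τ) :=
  (summable_norm_cotPair z τ).of_norm

/-- `π cot π(z + Mτ) → -πi` -/
theorem tendsto_pi_cot_add (z : ℂ) (τ : ℍ) :
    Tendsto (fun M : ℕ => π * Complex.cot (π * (z + (M : ℂ) * τ))) atTop (𝓝 (-(π * Complex.I))) := by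
  have hτ : 0 < τ.im := τ.im_pos
  rw [tendsto_iff_norm_sub_tendsto_zero]
  have hbound : ∀ᶠ M : ℕ in atTop, ‖π * Complex.cot (π * (z + (M : ℂ) * τ)) - -(π * Complex.I)‖ ≤
      cotK τ.im * rexp (-2 * π * (z.im + (M : ℝ) * τ.im)) := by
    obtain ⟨M₀, hM₀⟩ := exists_nat_ge ((|z.im| + τ.im) / τ.im)
    filter_upwards [eventually_ge_atTop M₀] with M hM
    have him1 : (z + (M : ℂ) * τ).im = z.im + (M : ℝ) * τ.im := by simp [add_im, mul_im]
    have hMr : (M₀ : ℝ) ≤ M := by exact_mod_cast hM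
    have h0 := (div_le_iff₀ hτ).mp (hM₀.trans hMr)
    have habs1 : -|z.im| ≤ z.im := neg_abs_le _
    have := norm_pi_cot_add_pi_I_le_of_le (w := z + (M : ℂ) * τ) hτ (by rw [him1]; linarith)
    rw [sub_neg_eq_add]
    rw [him1] at this
    exact this
  refine squeeze_zero' (Eventually.of_forall fun _ => norm_nonneg _) hbound ?_
  have : Tendsto (fun M : ℕ => -2 * π * (z.im + (M : ℝ) * τ.im)) atTop atBot := by
    have h1 : Tendsto (fun M : ℕ => (M : ℝ) * τ.im) atTop atTop :=
      tendsto_natCast_atTop_atTop.atTop_mul_const hτ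
    have h2 : Tendsto (fun M : ℕ => z.im + (M : ℝ) * τ.im) atTop atTop :=
      tendsto_atTop_add_const_left _ _ h1
    have h3 := h2.const_mul_atTop_of_neg (show (-2 * π : ℝ) < 0 by
      have : 0 < 2 * π := by positivity
      linarith)
    exact h3
  have h4 := (Real.tendsto_exp_atBot.comp this).const_mul (cotK τ.im)
  simpa using h4

/-- `π cot π(z - Mτ) → πi` -/
theorem tendsto_pi_cot_sub (z : ℂ) (τ : ℍ) :
    Tendsto (fun M : ℕ => π * Complex.cot (π * (z - (M : ℂ) * τ))) atTop (𝓝 (π * Complex.I)) := by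
  have h := (tendsto_pi_cot_add (-z) τ).neg
  rw [neg_neg] at h
  refine h.congr fun M => ?_
  have : π * (z - (M : ℂ) * τ) = -(π * (-z + (M : ℂ) * τ)) := by ring
  rw [this, cot_neg']
  ring

end Fermat.Agent.DS.E1
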