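import Fermat.Agent.DS.E1.Summable
import Fermat.Agent.DS.E1.CotBound

/-!
# PROGRAMME III, kernel E1, leaf KB: row summation `ζ(z; τ) = e₂(τ) z + Ψ(z; τ)` (helper18)

Fubini on the absolutely convergent lattice sum (KS), the inner sums by Mathlib's
`cot_series_rep'`, the outer sum in the order `0, ±1, ±2, …`.
-/

set_option autoImplicit false
set_option linter.unusedSectionVars false
set_option linter.unusedVariables false

noncomputable section

namespace Fermat.Agent.DS.E1

open UpperHalfPlane Complex Real Filter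
open scoped MatrixGroups ModularForm Topology

/-! ## summation over `ℤ` in the order `0, ±1, ±2, …` -/

theorem summable_nat_of_int {f : ℤ → ℂ} (hf : Summable f) : Summable fun n : ℕ => f n :=
  hf.comp_injective Nat.cast_injective

theorem summable_negSucc_of_int {f : ℤ → ℂ} (hf : Summable f) :
    Summable fun n : ℕ => f (-((n : ℤ) + 1)) :=
  hf.comp_injective (fun a b h => by
    have : (a : ℤ) = b := by linarith
    exact_mod_cast this)

theorem tsum_int_eq_zero_add {f : ℤ → ℂ} (hf : Summable f) :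
    ∑' n : ℤ, f n = f 0 + ∑' n : ℕ, (f ((n : ℤ) + 1) + f (-((n : ℤ) + 1))) := by
  have h1 := summable_nat_of_int hf
  have h2 := summable_negSucc_of_int hf
  have h1' : Summable fun n : ℕ => f ((n : ℤ) + 1) := by
    have := (summable_nat_add_iff 1).mpr h1
    simpa using this
  rw [tsum_of_nat_of_neg_add_one h1 h2, h1.tsum_eq_zero_add, h1'.tsum_add h2, add_assoc]
  simp

theorem summable_int_of_even {f : ℤ → ℂ} (hev : ∀ n, f (-n) = f n)
    (h : Summable fun n : ℕ => f ((n : ℤ) + 1)) : Summable f := by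
  apply Summable.of_nat_of_neg_add_one
  · refine (summable_nat_add_iff (f := fun n : ℕ => f n) 1).mp ?_
    refine h.congr fun n => ?_
    push_cast
    rfl
  · exact h.congr fun n => (hev ((n : ℤ) + 1)).symm

/-! ## the rows -/

theorem cons_ne_zero_iff (m n : ℤ) : (![m, n] : Fin 2 → ℤ) = 0 ↔ m = 0 ∧ n = 0 := by
  constructor
  · intro h
    exact ⟨by simpa using congrFun h 0, by simpa using congrFun h 1⟩
  · rintro ⟨rfl, rfl⟩
    funext i
    fin_cases i <;> rfl

theorem lam_cons (τ : ℍ) (m n : ℤ) : lam τ ![m, n] = (m : ℂ) * τ + n := by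
  simp [lam]

/-- the inner sum of `e2` -/
def e2Row (τ : ℍ) (m : ℤ) : ℂ :=
  ∑' n : ℤ, if m = 0 ∧ n = 0 then 0 else 1 / ((m : ℂ) * τ + n) ^ 2

theorem e2_eq (τ : ℍ) : e2 τ = ∑' m : ℤ, e2Row τ m := rfl

theorem e2Row_summand_eq (τ : ℍ) (m n : ℤ) :
    (if m = 0 ∧ n = 0 then (0 : ℂ) else 1 / ((m : ℂ) * τ + n) ^ 2) =
      EisensteinSeries.eisSummand 2 ![m, n] τ := by
  simp only [EisensteinSeries.eisSummand, Matrix.cons_val_zero, Matrix.cons_val_one, zpow_neg]
  split_ifs with h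
  · obtain ⟨rfl, rfl⟩ := h
    simp
  · rw [one_div]
    norm_cast

theorem summable_e2Row_summand (τ : ℍ) (m : ℤ) :
    Summable fun n : ℤ => if m = 0 ∧ n = 0 then (0 : ℂ) else 1 / ((m : ℂ) * τ + n) ^ 2 := by
  simp_rw [e2Row_summand_eq]
  exact EisensteinSeries.e2Summand_summable m τ

theorem e2Row_neg (τ : ℍ) (m : ℤ) : e2Row τ (-m) = e2Row τ m := by
  unfold e2Row
  rw [← (Equiv.neg ℤ).tsum_eq]
  refine tsum_congr fun n => ?_
  simp only [Equiv.neg_apply, neg_eq_zero, Int.cast_neg]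
  congr 1
  have : (-(m : ℂ) * τ + -(n : ℂ)) ^ 2 = ((m : ℂ) * τ + n) ^ 2 := by ring
  rw [this]

theorem mul_tau_mem_integerComplement (τ : ℍ) {m : ℤ} (hm : m ≠ 0) :
    (m : ℂ) * τ ∈ Complex.integerComplement := by
  rintro ⟨n, hn⟩
  have := congrArg Complex.im hn
  simp only [intCast_im, mul_im, intCast_re, coe_im, coe_re, zero_mul, add_zero] at this
  rcases mul_eq_zero.mp this.symm with h | h
  · exact hm (by exact_mod_cast h)
  · exact τ.im_ne_zero h

theorem sub_mul_tau_mem_integerComplement {z : ℂ} {τ : ℍ} (hz : ¬ InLat z τ) (m : ℤ) :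
    z - (m : ℂ) * τ ∈ Complex.integerComplement := by
  rintro ⟨n, hn⟩
  exact hz ⟨m, n, by rw [hn]; ring⟩

/-- the row `m ≠ 0` -/
theorem row_ne_zero {z : ℂ} {τ : ℍ} (hz : ¬ InLat z τ) {m : ℤ} (hm : m ≠ 0)
    (hrow : Summable fun n : ℤ => zetaTerm z τ ![m, n]) :
    ∑' n : ℤ, zetaTerm z τ ![m, n] =
      π * Complex.cot (π * (z - (m : ℂ) * τ)) + π * Complex.cot (π * ((m : ℂ) * τ)) +
        z * e2Row τ m := by
  set u : ℂ := z - (m : ℂ) * τ with hu
  set v : ℂ := (m : ℂ) * τ with hv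
  have huZ : u ∈ Complex.integerComplement := sub_mul_tau_mem_integerComplement hz m
  have hvZ : v ∈ Complex.integerComplement := mul_tau_mem_integerComplement τ hm
  -- the two pieces
  set g : ℤ → ℂ := fun n => 1 / (u - n) + 1 / (v + n) with hg
  set s : ℤ → ℂ := fun n => 1 / (v + n) ^ 2 with hs
  have hTerm : ∀ n : ℤ, zetaTerm z τ ![m, n] = g n + z * s n := by
    intro n
    have hne : (![m, n] : Fin 2 → ℤ) ≠ 0 := fun h => hm ((cons_ne_zero_iff m n).mp h).1
    rw [zetaTerm, if_neg hne, lam_cons]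
    simp only [hg, hs, hu, hv]
    have : z - ((m : ℂ) * τ + n) = z - (m : ℂ) * τ - n := by ring
    rw [this]
    ring
  have hsSum : Summable s := by
    have := summable_e2Row_summand τ m
    refine this.congr fun n => ?_
    rw [if_neg (fun h => hm h.1)]
  have hgSum : Summable g := by
    have := hrow.sub (hsSum.mul_left z)
    refine this.congr fun n => ?_
    rw [hTerm]; ring
  have hsRow : ∑' n : ℤ, s n = e2Row τ m := by
    unfold e2Row
    refine tsum_congr fun n => ?_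
    rw [if_neg (fun h => hm h.1)]
  -- the sum of `g`
  have hgval : ∑' n : ℤ, g n = π * Complex.cot (π * u) + π * Complex.cot (π * v) := by
    rw [tsum_int_eq_zero_add hgSum]
    have hpair : ∀ k : ℕ, g ((k : ℤ) + 1) + g (-((k : ℤ) + 1)) = cotTerm u k + cotTerm v k := by
      intro k
      simp only [hg, cotTerm]
      push_cast
      ring
    simp_rw [hpair]
    rw [(summable_cotTerm huZ).tsum_add (summable_cotTerm hvZ)]
    have h1 := cot_series_rep' huZ
    have h2 := cot_series_rep' hvZ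
    simp only [cotTerm]
    rw [← h1, ← h2]
    simp only [hg, Int.cast_zero, sub_zero, add_zero]
    ring
  calc ∑' n : ℤ, zetaTerm z τ ![m, n] = ∑' n : ℤ, (g n + z * s n) := tsum_congr hTerm
    _ = ∑' n : ℤ, g n + ∑' n : ℤ, z * s n := hgSum.tsum_add (hsSum.mul_left z)
    _ = _ := by rw [hgval, tsum_mul_left, hsRow]

/-- the row `m = 0` -/
theorem row_zero {z : ℂ} {τ : ℍ} (hz : ¬ InLat z τ)
    (hrow : Summable fun n : ℤ => zetaTerm z τ ![0, n]) :
    ∑' n : ℤ, zetaTerm z τ ![0, n] =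
      π * Complex.cot (π * z) - 1 / z + z * e2Row τ 0 := by
  have hzZ : z ∈ Complex.integerComplement := by
    have := sub_mul_tau_mem_integerComplement hz 0
    simpa using this
  have hs0 := summable_e2Row_summand τ 0
  rw [tsum_int_eq_zero_add hrow]
  have hrow0 : e2Row τ 0 = ∑' k : ℕ, (2 : ℂ) / ((k : ℂ) + 1) ^ 2 := by
    unfold e2Row
    rw [tsum_int_eq_zero_add hs0]
    simp only [true_and, if_true, zero_add]
    refine tsum_congr fun k => ?_
    have h1 : ¬ ((k : ℤ) + 1 = 0) := by omega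
    have h2 : ¬ (-((k : ℤ) + 1) = 0) := by omega
    rw [if_neg h1, if_neg h2]
    push_cast
    ring
  have hsum2 : Summable fun k : ℕ => (2 : ℂ) / ((k : ℂ) + 1) ^ 2 := by
    have h := (summable_negSucc_of_int hs0).add
      ((summable_nat_add_iff 1).mpr (summable_nat_of_int hs0))
    refine h.congr fun k => ?_
    have h1 : ¬ (((k + 1 : ℕ) : ℤ) = 0) := by omega
    have h2 : ¬ (-((k : ℤ) + 1) = 0) := by omega
    simp only [true_and]
    rw [if_neg h1, if_neg h2]
    push_cast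
    ring
  have hpair : ∀ k : ℕ, zetaTerm z τ ![0, (k : ℤ) + 1] + zetaTerm z τ ![0, -((k : ℤ) + 1)] =
      cotTerm z k + z * ((2 : ℂ) / ((k : ℂ) + 1) ^ 2) := by
    intro k
    have hne1 : (![0, (k : ℤ) + 1] : Fin 2 → ℤ) ≠ 0 := fun h => by
      have := ((cons_ne_zero_iff _ _).mp h).2; omega
    have hne2 : (![0, -((k : ℤ) + 1)] : Fin 2 → ℤ) ≠ 0 := fun h => by
      have := ((cons_ne_zero_iff _ _).mp h).2; omega
    have hk : ((k : ℂ) + 1) ≠ 0 := by
      have : ((k : ℂ) + 1) = ((k + 1 : ℕ) : ℂ) := by push_cast; ring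
      rw [this]
      exact_mod_cast Nat.succ_ne_zero k
    have key : ∀ a : ℂ, (1 / (z - a) + 1 / a + z / a ^ 2) +
        (1 / (z - (-a)) + 1 / (-a) + z / (-a) ^ 2) =
          (1 / (z - a) + 1 / (z + a)) + z * (2 / a ^ 2) := by
      intro a
      rw [sub_neg_eq_add, neg_sq, div_neg]
      ring
    rw [zetaTerm, zetaTerm, if_neg hne1, if_neg hne2, lam_cons, lam_cons]
    simp only [cotTerm, Int.cast_zero, zero_mul, zero_add, Int.cast_neg, Int.cast_add,
      Int.cast_natCast, Int.cast_one]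
    exact key _
  have h00 : zetaTerm z τ ![0, 0] = 0 := by
    rw [zetaTerm, if_pos ((cons_ne_zero_iff 0 0).mpr ⟨rfl, rfl⟩)]
  rw [h00, zero_add]
  simp_rw [hpair]
  rw [(summable_cotTerm hzZ).tsum_add (hsum2.mul_left z), tsum_mul_left, ← hrow0]
  have h1 := cot_series_rep' hzZ
  simp only [cotTerm]
  rw [← h1]

/-! ## the outer sum -/

/-- `cotPair` as a function on `ℕ` -/
def cotPairNat (z : ℂ) (τ : ℍ) (n : ℕ) : ℂ :=
  π * Complex.cot (π * (z - (n : ℂ) * τ)) + π * Complex.cot (π * (z + (n : ℂ) * τ))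

theorem cotPair_eq_nat (z : ℂ) (τ : ℍ) (m : ℕ+) : cotPair z τ m = cotPairNat z τ m := rfl

theorem summable_cotPairNat_succ (z : ℂ) (τ : ℍ) :
    Summable fun k : ℕ => cotPairNat z τ (k + 1) :=
  (summable_pnat_iff_summable_succ (f := cotPairNat z τ)).mp (summable_cotPair z τ)

theorem Psi_eq_nat (z : ℂ) (τ : ℍ) :
    Psi z τ = π * Complex.cot (π * z) + ∑' k : ℕ, cotPairNat z τ (k + 1) := by
  unfold Psi
  rw [← tsum_pnat_eq_tsum_succ (f := cotPairNat z τ)]
  rfl

/-- **(KB)** row summation. -/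
theorem zetaW_eq {z : ℂ} {τ : ℍ} (hz : ¬ InLat z τ) : zetaW z τ = e2 τ * z + Psi z τ := by
  have hz0 : z ≠ 0 := fun h => hz ⟨0, 0, by simp [h]⟩
  -- Fubini
  set F : ℤ × ℤ → ℂ := fun p => zetaTerm z τ ![p.1, p.2] with hF
  have hFsum : Summable F := by
    have := (finTwoArrowEquiv ℤ).symm.summable_iff.mpr (summable_zetaTerm z τ)
    exact this
  have hFub : ∑' v : Fin 2 → ℤ, zetaTerm z τ v = ∑' m : ℤ, ∑' n : ℤ, zetaTerm z τ ![m, n] := by
    rw [← (finTwoArrowEquiv ℤ).symm.tsum_eq (zetaTerm z τ)]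
    exact hFsum.tsum_prod
  set R : ℤ → ℂ := fun m => ∑' n : ℤ, zetaTerm z τ ![m, n] with hR
  have hRsum : Summable R := hFsum.prod
  have hrow : ∀ m : ℤ, Summable fun n : ℤ => zetaTerm z τ ![m, n] := fun m => hFsum.prod_factor m
  -- the rows
  have hR0 : R 0 = π * Complex.cot (π * z) - 1 / z + z * e2Row τ 0 := row_zero hz (hrow 0)
  have hRpair : ∀ k : ℕ, R ((k : ℤ) + 1) + R (-((k : ℤ) + 1)) =
      cotPairNat z τ (k + 1) + z * (2 * e2Row τ ((k : ℤ) + 1)) := by
    intro k
    have h1 : ((k : ℤ) + 1) ≠ 0 := by omega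
    have h2 : (-((k : ℤ) + 1)) ≠ 0 := by omega
    simp only [hR]
    rw [row_ne_zero hz h1 (hrow _), row_ne_zero hz h2 (hrow _), e2Row_neg]
    unfold cotPairNat
    push_cast
    have e1 : (π : ℂ) * (-((k : ℂ) + 1) * τ) = -(π * (((k : ℂ) + 1) * τ)) := by ring
    have e2 : z - -((k : ℂ) + 1) * τ = z + ((k : ℂ) + 1) * τ := by ring
    rw [e1, cot_neg', e2]
    ring
  -- summability of the rows of `e2`
  have hPsum : Summable fun k : ℕ => R ((k : ℤ) + 1) + R (-((k : ℤ) + 1)) := by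
    have h1 : Summable fun k : ℕ => R ((k : ℤ) + 1) := by
      have := (summable_nat_add_iff 1).mpr (summable_nat_of_int hRsum)
      simpa using this
    exact h1.add (summable_negSucc_of_int hRsum)
  have hE2succ : Summable fun k : ℕ => e2Row τ ((k : ℤ) + 1) := by
    have h1 : Summable fun k : ℕ => z * (2 * e2Row τ ((k : ℤ) + 1)) := by
      have := hPsum.sub (summable_cotPairNat_succ z τ)
      refine this.congr fun k => ?_
      rw [hRpair]; ring
    have h2 : Summable fun k : ℕ => (z * 2) * e2Row τ ((k : ℤ) + 1) :=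
      h1.congr fun k => by ring
    exact (summable_mul_left_iff (mul_ne_zero hz0 two_ne_zero)).mp h2
  have hE2sum : Summable (e2Row τ) := summable_int_of_even (e2Row_neg τ) hE2succ
  have hE2 : e2 τ = e2Row τ 0 + ∑' k : ℕ, 2 * e2Row τ ((k : ℤ) + 1) := by
    rw [e2_eq, tsum_int_eq_zero_add hE2sum]
    congr 1
    refine tsum_congr fun k => ?_
    rw [e2Row_neg]; ring
  -- conclusion
  unfold zetaW
  rw [hFub]
  show 1 / z + ∑' m : ℤ, R m = _
  rw [tsum_int_eq_zero_add hRsum, hR0]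
  simp_rw [hRpair]
  rw [(summable_cotPairNat_succ z τ).tsum_add ((hE2succ.mul_left 2).mul_left z), tsum_mul_left,
    Psi_eq_nat, hE2]
  ring

theorem kB : KB := fun τ z hz => zetaW_eq hz

end Fermat.Agent.DS.E1
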