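import Fermat.Agent.DS.E1.Seams
import Fermat.Prelude.Def_ModularForm_EisensteinChiNegThree

/-!
# PROGRAMME III, kernel E1: `Θ₃ = 6·E_{1,χ₋₃}` (helper29)

`hasThetaThree_of : KF → ∃ Θ : ModularForm (Gamma1 3) 1, ∀ n, qCoeff Θ n = coeff n e1Chi3`
(the `HasThetaThree` of DS1, finding #1964): the weight-one Eisenstein series of the quadratic
character mod `3`, normalised as `1 + 6 Σ_{n ≥ 1} (Σ_{d ∣ n} χ₋₃(d)) qⁿ`, with the Prelude's
`EisensteinWeightOne.e1Chi3`.

Auxiliary declarations live in the sub-namespace `Fermat.Agent.DS.E1.Theta3`.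
-/

set_option autoImplicit false

noncomputable section

namespace Fermat.Agent.DS.E1

open UpperHalfPlane Complex Real CongruenceSubgroup ModularFormClass
open scoped MatrixGroups ModularForm

namespace Theta3

/-- `χ₋₃`, the quadratic character mod `3`, with complex values -/
def chi3 : DirichletCharacter ℂ 3 := (quadraticChar (ZMod 3)).ringHomComp (Int.castRingHom ℂ)

theorem chi3_apply (a : ZMod 3) : chi3 a = ((quadraticChar (ZMod 3) a : ℤ) : ℂ) := rfl

theorem quadraticChar_three_zero : quadraticChar (ZMod 3) 0 = 0 := by decide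
theorem quadraticChar_three_one : quadraticChar (ZMod 3) 1 = 1 := by decide
theorem quadraticChar_three_two : quadraticChar (ZMod 3) 2 = -1 := by decide

theorem chi3_odd : chi3.Odd := by
  show chi3 (-1) = -1
  rw [chi3_apply]
  have : quadraticChar (ZMod 3) (-1) = -1 := by decide
  rw [this]
  simp

/-- `χ₋₃(d)` is the Prelude's `chiNegThree d` -/
theorem chi3_natCast (d : ℕ) : chi3 (d : ZMod 3) = ((EisensteinWeightOne.chiNegThree d : ℤ) : ℂ) := by
  rw [chi3_apply]
  congr 1
  have h : ((d : ZMod 3)) = ((d % 3 : ℕ) : ZMod 3) := (ZMod.natCast_mod d 3).symm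
  rw [h]
  unfold EisensteinWeightOne.chiNegThree
  have hlt : d % 3 < 3 := Nat.mod_lt _ (by norm_num)
  interval_cases hd : d % 3
  · simp
  · simp
  · simp
    exact quadraticChar_three_two

/-- the constant term `Σ_b b·χ₋₃(b) = -1` -/
theorem sum_val_mul_chi3 : ∑ b : ZMod 3, (b.val : ℂ) * chi3 b = -1 := by
  have huniv : (Finset.univ : Finset (ZMod 3)) = {0, 1, 2} := by decide
  rw [huniv, Finset.sum_insert (by decide), Finset.sum_insert (by decide), Finset.sum_singleton]
  have h0 : chi3 (0 : ZMod 3) = 0 := by rw [chi3_apply, quadraticChar_three_zero]; simp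
  have h1 : chi3 (1 : ZMod 3) = 1 := by rw [chi3_apply, quadraticChar_three_one]; simp
  have h2 : chi3 (2 : ZMod 3) = -1 := by rw [chi3_apply, quadraticChar_three_two]; simp
  have v0 : (0 : ZMod 3).val = 0 := rfl
  have v1 : (1 : ZMod 3).val = 1 := rfl
  have v2 : (2 : ZMod 3).val = 2 := rfl
  rw [h0, h1, h2, v0, v1, v2]
  push_cast
  ring

/-- `qCoeff (c • E) n = c · qCoeff E n` on `Γ₁(ℓ)` -/
theorem qCoeff_const_smul {ℓ : ℕ} (c : ℂ) (E : ModularForm (Gamma1 ℓ) 1) (n : ℕ) :
    qCoeff (⇑(c • E)) n = c * qCoeff (⇑E) n := by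
  have h1 : (1 : ℝ) ∈ (Gamma1 ℓ : Subgroup (GL (Fin 2) ℝ)).strictPeriods := by
    rw [strictPeriods_Gamma1]
    exact AddSubgroup.mem_zmultiples 1
  unfold qCoeff
  rw [FunLike.coe_smul, ModularForm.qExpansion_smul zero_lt_one h1 c E, PowerSeries.coeff_smul,
    smul_eq_mul]

end Theta3

open Theta3

/-- **`HasThetaThree`** from the weight-one Eisenstein series (kernel KF) -/
theorem hasThetaThree_of (h : KF) : ∃ Θ : ModularForm (Gamma1 3) 1, ∀ n : ℕ,
    ModularFormClass.qCoeff Θ n = ((PowerSeries.coeff n EisensteinWeightOne.e1Chi3 : ℤ) : ℂ) := by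
  obtain ⟨E, -, h0, hn⟩ := h 3 chi3 chi3_odd
  refine ⟨(6 : ℂ) • E, fun n => ?_⟩
  rw [qCoeff_const_smul]
  unfold EisensteinWeightOne.e1Chi3
  rw [PowerSeries.coeff_mk]
  rcases Nat.eq_zero_or_pos n with rfl | hpos
  · rw [h0, sum_val_mul_chi3]
    simp
    norm_num
  · rw [hn n hpos, if_neg hpos.ne']
    unfold EisensteinWeightOne.sigmaChi
    push_cast
    congr 1
    exact Finset.sum_congr rfl fun d _ => chi3_natCast d

end Fermat.Agent.DS.E1
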