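import Fermat.Agent.DS.E1.Homog
import Fermat.Agent.DS.E1.RowSum
import Fermat.Agent.DS.E1.PsiPeriod
import Fermat.Agent.DS.E1.Holo
import Fermat.Agent.DS.E1.QExp
import Fermat.Agent.DS.E1.Assembly
import Fermat.Agent.DS.E1.Theta3

/-!
# PROGRAMME III, kernel E1: closing file (helper18)

The weight-one Eisenstein series `E_{1,χ}` on `Γ₁(ℓ)`, unconditionally:

* `Phi_slash` : `Φ_v ∣[1] γ = Φ_{vγ}` for every `γ ∈ SL(2,ℤ)`;
* `kF : KF` and `exists_eisOne` : for `χ` odd modulo a prime `ℓ` there is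
  `E ∈ M₁(Γ₁(ℓ))` with nebentypus `χ`, constant term `-(1/2ℓ) Σ_b b χ(b)` and
  `a_n(E) = Σ_{d ∣ n} χ(d)`;
* `hasThetaThree` : `1 + 6 Σ_n (Σ_{d ∣ n} χ₋₃(d)) qⁿ` (the Prelude's `e1Chi3`) is the `q`-expansion of
  a modular form of weight one on `Γ₁(3)`.

Leaves: `Homog` (KA), `Summable` (KS), `RowSum` (KB), `CotBound` — helper18; `PsiPeriod` (KC),
`Holo` (KE1, KE2) — helper6; `QExp` (KE3) — helper29; `FourierZMod`, `Assembly` (KF) — helper7;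
`Theta3` — helper29.  (Spares, not imported here: `PhiForm` (KFa, KFb) — helper18; `Fourier`
(KF1–KF3) — helper14.)
-/

set_option autoImplicit false

noncomputable section

namespace Fermat.Agent.DS.E1

open UpperHalfPlane Complex Real CongruenceSubgroup
open scoped MatrixGroups ModularForm Manifold

/-- `Φ_v ∣[1] γ = Φ_{vγ}` for every `γ ∈ SL(2,ℤ)`, unconditionally. -/
theorem Phi_slash (γ : SL(2, ℤ)) (r s : ℝ) (hrs : NotInt r s) :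
    (Phi r s) ∣[(1 : ℤ)] γ =
      Phi (r * (γ 0 0 : ℤ) + s * (γ 1 0 : ℤ)) (r * (γ 0 1 : ℤ) + s * (γ 1 1 : ℤ)) :=
  Phi_slash_of_kernels kA kB kC γ r s hrs

/-- **(KF)** the weight-one Eisenstein series `E_{1,χ}`. -/
theorem kF : KF := fun ℓ _ χ hχ =>
  exists_eisOne_of_kernels kA kB kC kE1 kE2 kE3 ℓ χ hχ

/-- **The weight-one Eisenstein series `E_{1,χ}`**, `χ` odd modulo a prime `ℓ`. -/
theorem exists_eisOne (ℓ : ℕ) [Fact ℓ.Prime] (χ : DirichletCharacter ℂ ℓ) (hχ : χ.Odd) :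
    ∃ E : ModularForm (Gamma1 ℓ) 1,
      (∀ γ ∈ Gamma0 ℓ, ⇑E ∣[(1 : ℤ)] γ = χ ((γ 1 1 : ℤ) : ZMod ℓ) • ⇑E) ∧
      ModularFormClass.qCoeff E 0 = -(1 / (2 * (ℓ : ℂ))) * ∑ b : ZMod ℓ, (b.val : ℂ) * χ b ∧
      ∀ n : ℕ, 0 < n → ModularFormClass.qCoeff E n = ∑ d ∈ n.divisors, χ (d : ZMod ℓ) :=
  kF ℓ χ hχ

/-- **`Θ₃`**: the Prelude's `e1Chi3 = 1 + 6 Σ σ_{χ₋₃}(n) qⁿ` is modular of weight one on `Γ₁(3)`. -/
theorem hasThetaThree : ∃ Θ : ModularForm (Gamma1 3) 1, ∀ n : ℕ,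
    ModularFormClass.qCoeff Θ n = ((PowerSeries.coeff n EisensteinWeightOne.e1Chi3 : ℤ) : ℂ) :=
  hasThetaThree_of kF

end Fermat.Agent.DS.E1
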