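import Mathlib

/-!
# PROGRAMME III (S48, Deligne–Serre), kernel E1: weight-one Eisenstein series — CONTRACT (helper18)

The Weierstrass `ζ`-route (Hecke / Diamond–Shurman §4.8), organised so that NO conditionally
convergent double series, NO `E₂`, NO theta function and NO generators of `SL(2,ℤ)` are needed.

For `τ ∈ ℍ`, `Λ_τ = ℤ τ + ℤ`:

* `zetaW z τ = 1/z + Σ'_{ω ∈ Λ_τ ∖ 0} (1/(z-ω) + 1/ω + z/ω²)` (absolutely convergent);
* `e2 τ = Σ_m Σ_n' 1/(mτ+n)²` (iterated sum; only its VALUE is used, no modularity);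
* `Psi z τ = π cot πz + Σ_{m ≥ 1} (π cot π(z - mτ) + π cot π(z + mτ))` (exponentially convergent);
* `Phi r s τ = 2πi r + Psi (rτ + s) τ`, `(r, s) ∈ ℝ² ∖ ℤ²`: **the weight-one Eisenstein series**.

Kernels (leaves, to be PROVED in sibling files):

* `KA` (homogeneity, a reindexing of the lattice sum) `ζ(z; γτ) = j · ζ(jz; τ)`, `j = cτ + d`;
* `KB` (row summation: Fubini + `cot_series_rep`) `ζ(z; τ) = e₂(τ) z + Ψ(z; τ)`;
* `KC` (telescoping) `Ψ(z+1) = Ψ(z)`, `Ψ(z+τ) = Ψ(z) - 2πi`.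

Glue, PROVED here: `Phi_slash_of_kernels` : `Φ_{(r,s)}(γτ) = (cτ+d) · Φ_{(r,s)γ}(τ)` for EVERY
`γ ∈ SL(2,ℤ)` (the anomaly of `e₂` under `γ` is derived on the way and cancels against `2πi r`).
-/

set_option autoImplicit false
set_option linter.unusedSectionVars false
set_option linter.unusedVariables false

noncomputable section

namespace Fermat.Agent.DS.E1

open UpperHalfPlane Complex Real
open scoped MatrixGroups ModularForm

/-- the lattice point `m τ + n` -/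
def lam (τ : ℍ) (v : Fin 2 → ℤ) : ℂ := (v 0 : ℂ) * τ + v 1

/-- `z ∈ Λ_τ` -/
def InLat (z : ℂ) (τ : ℍ) : Prop := ∃ m n : ℤ, z = (m : ℂ) * τ + n

/-- `(r, s) ∈ ℤ²` fails -/
def NotInt (r s : ℝ) : Prop := ¬ ∃ m n : ℤ, r = m ∧ s = n

/-- the summand of the Weierstrass `ζ`-function -/
def zetaTerm (z : ℂ) (τ : ℍ) (v : Fin 2 → ℤ) : ℂ :=
  if v = 0 then 0 else 1 / (z - lam τ v) + 1 / lam τ v + z / (lam τ v) ^ 2

/-- the Weierstrass `ζ`-function of the lattice `ℤ τ + ℤ` -/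
def zetaW (z : ℂ) (τ : ℍ) : ℂ := 1 / z + ∑' v : Fin 2 → ℤ, zetaTerm z τ v

/-- the iterated sum `Σ_m Σ_n' (mτ+n)⁻²` -/
def e2 (τ : ℍ) : ℂ :=
  ∑' m : ℤ, ∑' n : ℤ, if m = 0 ∧ n = 0 then 0 else 1 / ((m : ℂ) * τ + n) ^ 2

/-- the `m`-th pair of cotangents -/
def cotPair (z : ℂ) (τ : ℍ) (m : ℕ+) : ℂ :=
  π * Complex.cot (π * (z - (m : ℂ) * τ)) + π * Complex.cot (π * (z + (m : ℂ) * τ))

/-- `Ψ(z; τ) = ζ(z; τ) - e₂(τ) z`, as a series of cotangents -/
def Psi (z : ℂ) (τ : ℍ) : ℂ := π * Complex.cot (π * z) + ∑' m : ℕ+, cotPair z τ m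

/-- **the weight-one Eisenstein series** `Φ_{(r,s)}` -/
def Phi (r s : ℝ) (τ : ℍ) : ℂ := 2 * π * Complex.I * r + Psi ((r : ℂ) * τ + s) τ

/-! ## the kernels -/

/-- (KA) homogeneity of `ζ` -/
def KA : Prop := ∀ (γ : SL(2, ℤ)) (τ : ℍ) (z : ℂ), ¬ InLat z (γ • τ) →
  zetaW z (γ • τ) = denom γ τ * zetaW (denom γ τ * z) τ

/-- (KB) row summation -/
def KB : Prop := ∀ (τ : ℍ) (z : ℂ), ¬ InLat z τ → zetaW z τ = e2 τ * z + Psi z τ

/-- (KC) periodicity and quasi-periodicity of `Ψ` -/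
def KC : Prop := (∀ (τ : ℍ) (z : ℂ), Psi (z + 1) τ = Psi z τ) ∧
  ∀ (τ : ℍ) (z : ℂ), ¬ InLat z τ → Psi (z + τ) τ = Psi z τ - 2 * π * Complex.I

/-! ## the glue -/

theorem inLat_add_iff (z : ℂ) (τ : ℍ) (m n : ℤ) :
    InLat (z + (m : ℂ) * τ + n) τ ↔ InLat z τ := by
  constructor
  · rintro ⟨m', n', h⟩
    exact ⟨m' - m, n' - n, by push_cast; linear_combination h⟩
  · rintro ⟨m', n', h⟩
    exact ⟨m' + m, n' + n, by push_cast; linear_combination h⟩

theorem not_inLat_of_notInt {r s : ℝ} (h : NotInt r s) (τ : ℍ) :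
    ¬ InLat ((r : ℂ) * τ + s) τ := by
  rintro ⟨m, n, hmn⟩
  apply h
  have him : (r - m) * τ.im = 0 := by
    have := congrArg Complex.im hmn
    simp only [add_im, mul_im, ofReal_re, ofReal_im, coe_im, zero_mul, add_zero, intCast_re,
      intCast_im, coe_re] at this
    linarith
  have hr : r = m := by
    rcases mul_eq_zero.mp him with h1 | h1
    · linarith
    · exact absurd h1 τ.im_ne_zero
  refine ⟨m, n, hr, ?_⟩
  have hre := congrArg Complex.re hmn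
  simp only [add_re, mul_re, ofReal_re, ofReal_im, coe_re, coe_im, zero_mul, sub_zero, intCast_re,
    intCast_im] at hre
  rw [hr] at hre
  linarith

theorem Psi_add_natCast (hC : KC) (τ : ℍ) (w : ℂ) (k : ℕ) : Psi (w + (k : ℂ)) τ = Psi w τ := by
  induction k with
  | zero => simp
  | succ k ih =>
    have : w + ((k + 1 : ℕ) : ℂ) = (w + (k : ℂ)) + 1 := by push_cast; ring
    rw [this, hC.1, ih]

theorem Psi_add_intCast (hC : KC) (τ : ℍ) (w : ℂ) (n : ℤ) : Psi (w + (n : ℂ)) τ = Psi w τ := by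
  obtain ⟨k, rfl | rfl⟩ := Int.eq_nat_or_neg n
  · simpa using Psi_add_natCast hC τ w k
  · have h := Psi_add_natCast hC τ (w + ((-(k : ℤ) : ℤ) : ℂ)) k
    have e : w + ((-(k : ℤ) : ℤ) : ℂ) + (k : ℂ) = w := by push_cast; ring
    rw [e] at h
    exact h.symm

theorem Psi_add_natCast_mul (hC : KC) (τ : ℍ) (w : ℂ) (hw : ¬ InLat w τ) (k : ℕ) :
    Psi (w + (k : ℂ) * τ) τ = Psi w τ - 2 * π * Complex.I * k := by
  induction k with
  | zero => simp
  | succ k ih =>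
    have h1 : w + ((k + 1 : ℕ) : ℂ) * τ = (w + (k : ℂ) * τ) + τ := by push_cast; ring
    have h2 : ¬ InLat (w + (k : ℂ) * τ) τ := by
      have := (inLat_add_iff w τ k 0).not.mpr hw
      simpa using this
    rw [h1, hC.2 τ _ h2, ih]
    push_cast; ring

/-- `Ψ` under a translation by a lattice point. -/
theorem Psi_add_lam (hC : KC) (τ : ℍ) (z : ℂ) (hz : ¬ InLat z τ) (m n : ℤ) :
    Psi (z + (m : ℂ) * τ + n) τ = Psi z τ - 2 * π * Complex.I * m := by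
  rw [Psi_add_intCast hC]
  obtain ⟨k, rfl | rfl⟩ := Int.eq_nat_or_neg m
  · simpa using Psi_add_natCast_mul hC τ z hz k
  · have hw : ¬ InLat (z + ((-(k : ℤ) : ℤ) : ℂ) * τ) τ := by
      have := (inLat_add_iff z τ (-(k : ℤ)) 0).not.mpr hz
      simpa using this
    have h := Psi_add_natCast_mul hC τ _ hw k
    have e : z + ((-(k : ℤ) : ℤ) : ℂ) * τ + (k : ℂ) * τ = z := by push_cast; ring
    rw [e] at h
    rw [h]
    push_cast; ring

/-- the entries of `(r, s) γ` -/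
theorem notInt_vecMul {r s : ℝ} (h : NotInt r s) (γ : SL(2, ℤ)) :
    NotInt (r * (γ 0 0 : ℤ) + s * (γ 1 0 : ℤ)) (r * (γ 0 1 : ℤ) + s * (γ 1 1 : ℤ)) := by
  rintro ⟨m, n, hm, hn⟩
  apply h
  have hdet : (γ 0 0 : ℤ) * γ 1 1 - γ 0 1 * γ 1 0 = 1 := by
    have := γ.det_coe
    rwa [Matrix.det_fin_two] at this
  have hdetR : ((γ 0 0 : ℤ) : ℝ) * (γ 1 1 : ℤ) - (γ 0 1 : ℤ) * (γ 1 0 : ℤ) = 1 := by
    exact_mod_cast hdet
  refine ⟨m * γ 1 1 - n * γ 1 0, -m * γ 0 1 + n * γ 0 0, ?_, ?_⟩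
  · push_cast
    rw [← hm, ← hn]
    linear_combination (-r) * hdetR
  · push_cast
    rw [← hm, ← hn]
    linear_combination (-s) * hdetR

/-- **the transformation law of `Φ`**, from the three kernels. -/
theorem Phi_smul_of_kernels (hA : KA) (hB : KB) (hC : KC) (γ : SL(2, ℤ)) (τ : ℍ) (r s : ℝ)
    (hrs : NotInt r s) :
    Phi r s (γ • τ) = denom γ τ *
      Phi (r * (γ 0 0 : ℤ) + s * (γ 1 0 : ℤ)) (r * (γ 0 1 : ℤ) + s * (γ 1 1 : ℤ)) τ := by
  set a : ℤ := γ 0 0 with ha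
  set b : ℤ := γ 0 1 with hb
  set c : ℤ := γ 1 0 with hc
  set d : ℤ := γ 1 1 with hd
  have hdet : ((a : ℤ) : ℂ) * d - b * c = 1 := by
    have := γ.det_coe
    rw [Matrix.det_fin_two] at this
    exact_mod_cast this
  set j : ℂ := denom γ τ with hj
  have hj0 : j ≠ 0 := denom_ne_zero γ τ
  have hjeq : j = (c : ℂ) * τ + d := by
    rw [hj, ModularGroup.denom_apply]
  have hτ' : ((γ • τ : ℍ) : ℂ) = ((a : ℂ) * τ + b) / j := by
    rw [UpperHalfPlane.coe_specialLinearGroup_apply, hjeq]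
    simp [ha, hb, hc, hd]
  set r' : ℝ := r * a + s * c with hr'
  set s' : ℝ := r * b + s * d with hs'
  set z : ℂ := (r' : ℂ) * τ + s' with hz
  set z' : ℂ := (r : ℂ) * (γ • τ : ℍ) + s with hz'
  have hzz' : j * z' = z := by
    rw [hz', hτ', hz, hr', hs', hjeq]
    rw [hjeq] at hj0
    field_simp
    push_cast
    ring
  have hrs' : NotInt r' s' := notInt_vecMul hrs γ
  have hzL : ¬ InLat z τ := not_inLat_of_notInt hrs' τ
  have hz'L : ¬ InLat z' (γ • τ) := not_inLat_of_notInt hrs (γ • τ)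
  have hz'1L : ¬ InLat (z' + 1) (γ • τ) := by
    have := (inLat_add_iff z' (γ • τ) 0 1).not.mpr hz'L
    simpa using this
  have hzjL : ¬ InLat (z + (c : ℂ) * τ + d) τ := (inLat_add_iff z τ c d).not.mpr hzL
  -- the values of `ζ`
  have e1 : zetaW z' (γ • τ) = j * zetaW z τ := by
    rw [hA γ τ z' hz'L, ← hj, hzz']
  have e2' : zetaW (z' + 1) (γ • τ) = j * zetaW (z + (c : ℂ) * τ + d) τ := by
    rw [hA γ τ (z' + 1) hz'1L, ← hj]
    congr 2
    rw [mul_add, hzz', mul_one, hjeq]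
    ring
  -- the anomaly of `e₂`
  have he2 : e2 (γ • τ) = j ^ 2 * e2 τ - 2 * π * Complex.I * c * j := by
    have h1 := hB (γ • τ) z' hz'L
    have h2 := hB (γ • τ) (z' + 1) hz'1L
    rw [hC.1] at h2
    have h3 := hB τ z hzL
    have h4 := hB τ _ hzjL
    rw [Psi_add_lam hC τ z hzL c d] at h4
    have : e2 (γ • τ) = zetaW (z' + 1) (γ • τ) - zetaW z' (γ • τ) := by
      rw [h1, h2]; ring
    rw [this, e1, e2', h3, h4, hjeq]
    ring
  -- conclusion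
  have h1 := hB (γ • τ) z' hz'L
  have h3 := hB τ z hzL
  have hPsi : Psi z' (γ • τ) = j * Psi z τ + 2 * π * Complex.I * c * z := by
    have : Psi z' (γ • τ) = zetaW z' (γ • τ) - e2 (γ • τ) * z' := by rw [h1]; ring
    rw [this, e1, h3, he2, ← hzz']
    ring
  have hr : (r : ℂ) = (r' : ℂ) * d - (s' : ℂ) * c := by
    rw [hr', hs']
    push_cast
    linear_combination (-(r : ℂ)) * hdet
  show 2 * π * Complex.I * r + Psi z' (γ • τ) = j * (2 * π * Complex.I * r' + Psi z τ)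
  rw [hPsi, hz, hjeq, hr]
  ring

/-- **the slash form**: `Φ_v ∣[1] γ = Φ_{vγ}` for every `γ ∈ SL(2,ℤ)`. -/
theorem Phi_slash_of_kernels (hA : KA) (hB : KB) (hC : KC) (γ : SL(2, ℤ)) (r s : ℝ)
    (hrs : NotInt r s) :
    (Phi r s) ∣[(1 : ℤ)] γ =
      Phi (r * (γ 0 0 : ℤ) + s * (γ 1 0 : ℤ)) (r * (γ 0 1 : ℤ) + s * (γ 1 1 : ℤ)) := by
  funext τ
  rw [ModularForm.SL_slash_apply, Phi_smul_of_kernels hA hB hC γ τ r s hrs, zpow_neg, zpow_one,
    mul_comm, ← mul_assoc, inv_mul_cancel₀ (denom_ne_zero γ τ), one_mul]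

end Fermat.Agent.DS.E1
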