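import Fermat.Agent.DS.E1.Defs

/-!
# PROGRAMME III, kernel E1, leaf KA: homogeneity of the Weierstrass `ζ`-function (helper18)

`ζ(z; γτ) = (cτ+d) · ζ((cτ+d) z; τ)`: the lattice `Λ_{γτ} = (cτ+d)⁻¹ Λ_τ`, reindexed by
`v ↦ v ᵥ* γ`; a termwise identity, NO summability is needed.
-/

set_option autoImplicit false
set_option linter.unusedSectionVars false
set_option linter.unusedVariables false

noncomputable section

namespace Fermat.Agent.DS.E1

open UpperHalfPlane Complex Real Matrix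
open scoped MatrixGroups ModularForm

/-- the reindexing `v ↦ v ᵥ* γ` of `ℤ²` -/
def vecMulEquiv (γ : SL(2, ℤ)) : (Fin 2 → ℤ) ≃ (Fin 2 → ℤ) where
  toFun v := v ᵥ* (γ : Matrix (Fin 2) (Fin 2) ℤ)
  invFun v := v ᵥ* ((γ⁻¹ : SL(2, ℤ)) : Matrix (Fin 2) (Fin 2) ℤ)
  left_inv v := by
    show (v ᵥ* (γ : Matrix (Fin 2) (Fin 2) ℤ)) ᵥ* ((γ⁻¹ : SL(2, ℤ)) : Matrix (Fin 2) (Fin 2) ℤ) = v
    rw [Matrix.vecMul_vecMul, ← Matrix.SpecialLinearGroup.coe_mul, mul_inv_cancel,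
      Matrix.SpecialLinearGroup.coe_one, Matrix.vecMul_one]
  right_inv v := by
    show (v ᵥ* ((γ⁻¹ : SL(2, ℤ)) : Matrix (Fin 2) (Fin 2) ℤ)) ᵥ* (γ : Matrix (Fin 2) (Fin 2) ℤ) = v
    rw [Matrix.vecMul_vecMul, ← Matrix.SpecialLinearGroup.coe_mul, inv_mul_cancel,
      Matrix.SpecialLinearGroup.coe_one, Matrix.vecMul_one]

theorem vecMulEquiv_eq_zero_iff (γ : SL(2, ℤ)) (v : Fin 2 → ℤ) :
    vecMulEquiv γ v = 0 ↔ v = 0 := by
  constructor
  · intro h
    have := congrArg (vecMulEquiv γ).symm h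
    rw [Equiv.symm_apply_apply] at this
    rw [this]
    show (0 : Fin 2 → ℤ) ᵥ* _ = 0
    exact Matrix.zero_vecMul _
  · rintro rfl
    show (0 : Fin 2 → ℤ) ᵥ* _ = 0
    exact Matrix.zero_vecMul _

/-- the lattice point of `Λ_{γτ}` indexed by `v` -/
theorem lam_smul (γ : SL(2, ℤ)) (τ : ℍ) (v : Fin 2 → ℤ) :
    lam (γ • τ) v = lam τ (vecMulEquiv γ v) / denom γ τ := by
  have h := EisensteinSeries.eisSummand_SL2_apply (-1) v γ τ
  simp only [EisensteinSeries.eisSummand, neg_neg, zpow_one, _root_.zpow_neg_one] at h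
  rw [lam, lam, h, div_eq_inv_mul]
  rfl

theorem zetaTerm_smul (γ : SL(2, ℤ)) (τ : ℍ) (z : ℂ) (v : Fin 2 → ℤ) :
    zetaTerm z (γ • τ) v = denom γ τ * zetaTerm (denom γ τ * z) τ (vecMulEquiv γ v) := by
  have hj : denom γ τ ≠ 0 := denom_ne_zero γ τ
  unfold zetaTerm
  by_cases hv : v = 0
  · rw [if_pos hv, if_pos ((vecMulEquiv_eq_zero_iff γ v).mpr hv), mul_zero]
  · rw [if_neg hv, if_neg (fun h => hv ((vecMulEquiv_eq_zero_iff γ v).mp h)), lam_smul]
    set ω := lam τ (vecMulEquiv γ v)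
    set j := denom γ τ
    have e1 : z - ω / j = (j * z - ω) / j := by field_simp
    rw [e1, one_div_div, one_div_div, div_pow, div_div_eq_mul_div]
    ring

/-- **(KA)** homogeneity of `ζ`. -/
theorem zetaW_smul (γ : SL(2, ℤ)) (τ : ℍ) (z : ℂ) :
    zetaW z (γ • τ) = denom γ τ * zetaW (denom γ τ * z) τ := by
  have hj : denom γ τ ≠ 0 := denom_ne_zero γ τ
  unfold zetaW
  rw [mul_add]
  congr 1
  · rw [one_div, one_div, mul_inv, ← mul_assoc, mul_inv_cancel₀ hj, one_mul]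
  · rw [← tsum_mul_left, ← (vecMulEquiv γ).tsum_eq (fun w => denom γ τ * zetaTerm (denom γ τ * z) τ w)]
    exact tsum_congr fun v => zetaTerm_smul γ τ z v

theorem kA : KA := fun γ τ z _ => zetaW_smul γ τ z

end Fermat.Agent.DS.E1
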