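import Fermat.Agent.DS.E1.Defs

/-!
# PROGRAMME III, kernel E1, leaf KS: absolute convergence of the Weierstrass `ζ` lattice sum
(helper18)

`1/(z-ω) + 1/ω + z/ω² = z²/(ω²(z-ω))`, of size `≤ 2‖z‖²/‖ω‖³` for `‖ω‖ ≥ 2‖z‖`, and
`Σ ‖ω‖⁻³ < ∞` (`EisensteinSeries.summable_norm_eisSummand`, `k = 3`).
-/

set_option autoImplicit false
set_option linter.unusedSectionVars false
set_option linter.unusedVariables false

noncomputable section

namespace Fermat.Agent.DS.E1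

open UpperHalfPlane Complex Real Filter
open scoped MatrixGroups ModularForm Topology

theorem norm_lam_pow_neg_three (τ : ℍ) (v : Fin 2 → ℤ) :
    ‖EisensteinSeries.eisSummand 3 v τ‖ = (‖lam τ v‖ ^ 3)⁻¹ := by
  simp only [EisensteinSeries.eisSummand, lam, zpow_neg, norm_inv, norm_zpow]
  norm_cast

/-- the closed form of the summand -/
theorem zetaTerm_eq (z : ℂ) (τ : ℍ) {v : Fin 2 → ℤ} (hv : v ≠ 0) (hω : lam τ v ≠ 0)
    (hzω : z - lam τ v ≠ 0) :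
    zetaTerm z τ v = z ^ 2 / ((lam τ v) ^ 2 * (z - lam τ v)) := by
  rw [zetaTerm, if_neg hv]
  field_simp
  ring

theorem lam_ne_zero (τ : ℍ) {v : Fin 2 → ℤ} (hv : v ≠ 0) : lam τ v ≠ 0 := by
  have h := UpperHalfPlane.linear_ne_zero (cd := fun i => ((v i : ℤ) : ℝ)) τ (by
    intro h0
    apply hv
    funext i
    have := congrFun h0 i
    simpa using this)
  simpa [lam] using h

/-- the bound far from the origin -/
theorem norm_zetaTerm_le (z : ℂ) (τ : ℍ) {v : Fin 2 → ℤ} (hv : v ≠ 0)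
    (hbig : 2 * ‖z‖ ≤ ‖lam τ v‖) (hpos : 0 < ‖z‖) :
    ‖zetaTerm z τ v‖ ≤ 2 * ‖z‖ ^ 2 * (‖lam τ v‖ ^ 3)⁻¹ := by
  have hω : lam τ v ≠ 0 := lam_ne_zero τ hv
  have hωpos : 0 < ‖lam τ v‖ := norm_pos_iff.mpr hω
  have hsub : ‖lam τ v‖ / 2 ≤ ‖z - lam τ v‖ := by
    have := norm_sub_norm_le (lam τ v) z
    rw [norm_sub_rev] at this
    linarith
  have hzω : z - lam τ v ≠ 0 := by
    intro h0
    rw [h0, norm_zero] at hsub
    linarith
  rw [zetaTerm_eq z τ hv hω hzω, norm_div, norm_mul, norm_pow, norm_pow]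
  rw [div_le_iff₀ (by positivity)]
  have h3 : (‖lam τ v‖ ^ 3)⁻¹ * (‖lam τ v‖ ^ 2 * (‖lam τ v‖ / 2)) = 1 / 2 := by
    field_simp
  calc ‖z‖ ^ 2 = 2 * ‖z‖ ^ 2 * ((‖lam τ v‖ ^ 3)⁻¹ * (‖lam τ v‖ ^ 2 * (‖lam τ v‖ / 2))) := by
        rw [h3]; ring
    _ = 2 * ‖z‖ ^ 2 * (‖lam τ v‖ ^ 3)⁻¹ * (‖lam τ v‖ ^ 2 * (‖lam τ v‖ / 2)) := by ring
    _ ≤ 2 * ‖z‖ ^ 2 * (‖lam τ v‖ ^ 3)⁻¹ * (‖lam τ v‖ ^ 2 * ‖z - lam τ v‖) := by
        gcongr

/-- **(KS)** the lattice sum defining `ζ` converges absolutely. -/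
theorem summable_norm_zetaTerm (z : ℂ) (τ : ℍ) :
    Summable fun v : Fin 2 → ℤ => ‖zetaTerm z τ v‖ := by
  by_cases hz0 : z = 0
  · have : (fun v : Fin 2 → ℤ => ‖zetaTerm z τ v‖) = fun _ => 0 := by
      funext v
      rw [zetaTerm, hz0]
      split_ifs
      · simp
      · simp
    rw [this]
    exact summable_zero
  have hpos : 0 < ‖z‖ := norm_pos_iff.mpr hz0
  have hsum : Summable fun v : Fin 2 → ℤ => 2 * ‖z‖ ^ 2 * (‖lam τ v‖ ^ 3)⁻¹ := by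
    have := (EisensteinSeries.summable_norm_eisSummand (k := 3) le_rfl τ).mul_left (2 * ‖z‖ ^ 2)
    simpa only [norm_lam_pow_neg_three] using this
  refine Summable.of_norm_bounded_eventually hsum ?_
  -- eventually (cofinitely) `2‖z‖ ≤ ‖ω‖`
  have htend : Tendsto (fun v : Fin 2 → ℤ => (‖lam τ v‖ ^ 3)⁻¹) cofinite (𝓝 0) := by
    have := (EisensteinSeries.summable_norm_eisSummand (k := 3) le_rfl τ).tendsto_cofinite_zero
    simpa only [norm_lam_pow_neg_three] using this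
  have hev : ∀ᶠ v : Fin 2 → ℤ in cofinite, (‖lam τ v‖ ^ 3)⁻¹ < ((2 * ‖z‖) ^ 3)⁻¹ :=
    htend.eventually (gt_mem_nhds (by positivity))
  have hev0 : ∀ᶠ v : Fin 2 → ℤ in cofinite, v ≠ 0 := by
    have : ({(0 : Fin 2 → ℤ)} : Set (Fin 2 → ℤ)).Finite := Set.finite_singleton _
    exact this.eventually_cofinite_notMem.mono fun v hv => by simpa using hv
  filter_upwards [hev, hev0] with v hv hv0
  rw [norm_norm]
  refine norm_zetaTerm_le z τ hv0 ?_ hpos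
  by_contra hlt
  rw [not_le] at hlt
  have hωpos : 0 < ‖lam τ v‖ := norm_pos_iff.mpr (lam_ne_zero τ hv0)
  have : ((2 * ‖z‖) ^ 3)⁻¹ ≤ (‖lam τ v‖ ^ 3)⁻¹ := by
    apply inv_anti₀ (by positivity)
    gcongr
  linarith

theorem summable_zetaTerm (z : ℂ) (τ : ℍ) : Summable fun v : Fin 2 → ℤ => zetaTerm z τ v :=
  (summable_norm_zetaTerm z τ).of_norm

end Fermat.Agent.DS.E1
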